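/-
S55 / block BRIDGE : basic vocabulary.

* `Cofinal 𝓝 P` : the level system `𝓝` and a family `P` of (not necessarily normal) subgroups
  define the same notion of "locally constant".
* `c0 c1 c2 c3` : translation of the low degree cochains of Mathlib / the Prelude
  (`M`, `G → M`, `G × G → M`, `G × G × G → M`) into the cochains `(Fin n → G) → A` of
  `Coh/Defs.lean`, along an additive map `e : M →+ A`.
-/
import Fermat.Agent.S55.Coh.Defs
import Fermat.Prelude.Def_GroupCohomology_ContinuousUnramified

set_option autoImplicit false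

namespace Fermat.Agent.S55.Bridge

section levels

variable {G : Type} [Group G]

/-- `𝓝` and the family `P` of subgroups are mutually cofinal. -/
structure Cofinal (𝓝 : LevelSys G) (P : Subgroup G → Prop) : Prop where
  exists_le : ∀ N ∈ 𝓝.carrier, ∃ U, P U ∧ U ≤ N
  exists_ge : ∀ U, P U → ∃ N ∈ 𝓝.carrier, N ≤ U

/-- The family of subgroups used by the Prelude predicates `IsLevelConstant₁ r`,
`IsLevelConstant₂ r`. -/
def PAll (r : G →* (AlgebraicClosure ℚ ≃ₐ[ℚ] AlgebraicClosure ℚ)) (U : Subgroup G) : Prop :=
  ∃ F : IntermediateField ℚ (AlgebraicClosure ℚ), FiniteDimensional ℚ F ∧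
    U = F.fixingSubgroup.comap r

/-- The family of subgroups used by the Prelude predicates `IsLevelConstantS₁ S`,
`IsLevelConstantS₂ S`. -/
def PS (S : Finset Nat.Primes)
    (U : Subgroup (AlgebraicClosure ℚ ≃ₐ[ℚ] AlgebraicClosure ℚ)) : Prop :=
  ∃ F : IntermediateField ℚ (AlgebraicClosure ℚ), F.IsUnramifiedOutside S ∧
    U = F.fixingSubgroup

end levels

section cochains

variable {G M A : Type} [AddCommGroup M] [AddCommGroup A] (e : M →+ A)

/-- degree 0 -/
def c0 (m : M) : (Fin 0 → G) → A := fun _ => e m

/-- degree 1 -/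
def c1 (f : G → M) : (Fin 1 → G) → A := fun g => e (f (g 0))

/-- degree 2 -/
def c2 (f : G × G → M) : (Fin 2 → G) → A := fun g => e (f (g 0, g 1))

/-- degree 3 -/
def c3 (f : G × G × G → M) : (Fin 3 → G) → A := fun g => e (f (g 0, g 1, g 2))

@[simp] theorem c0_apply (m : M) (g : Fin 0 → G) : c0 e m g = e m := rfl
@[simp] theorem c1_apply (f : G → M) (g : Fin 1 → G) : c1 e f g = e (f (g 0)) := rfl
@[simp] theorem c2_apply (f : G × G → M) (g : Fin 2 → G) : c2 e f g = e (f (g 0, g 1)) := rfl
@[simp] theorem c3_apply (f : G × G × G → M) (g : Fin 3 → G) :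
    c3 e f g = e (f (g 0, g 1, g 2)) := rfl

end cochains

section pull

variable {G A : Type}

/-- pull back of a cochain along a map of groups -/
def pull {H : Type} (r : H → G) {n : ℕ} (z : (Fin n → G) → A) : (Fin n → H) → A :=
  fun h => z (fun i => r (h i))

@[simp] theorem pull_apply {H : Type} (r : H → G) {n : ℕ} (z : (Fin n → G) → A)
    (h : Fin n → H) : pull r z h = z (fun i => r (h i)) := rfl

end pull

end Fermat.Agent.S55.Bridge
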