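/-
S55 / block BRIDGE : section Dual (G6).  Owner: helper206.
`M.dualTwist (cycloChar p)` is `Hom(M, μ)`, equivariantly.
-/
import Fermat.Agent.S55.Bridge.Basic

set_option autoImplicit false

open groupCohomology CategoryTheory ExtCitation
open scoped Pointwise

namespace Fermat.Agent.S55.Bridge

local notation "Qb" => AlgebraicClosure ℚ
local notation "GQ" => (AlgebraicClosure ℚ ≃ₐ[ℚ] AlgebraicClosure ℚ)

section Dual

private theorem exists_dualTwist_equiv_aux {p : ℕ} [Fact p.Prime] (M : Rep (ZMod p) GQ)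
    {μ : Type} [AddCommGroup μ] [Module (ZMod p) μ] [DistribMulAction GQ μ] (ζ : μ) (hζ0 : ζ ≠ 0)
    (hζ : ∀ x : μ, ∃ n : ℕ, x = n • ζ)
    (hχ : ∀ g : GQ, g • ζ = ((cycloChar p g : (ZMod p)ˣ) : ZMod p).val • ζ) :
    ∃ E : (M.dualTwist (cycloChar p)) ≃+ (M →+ μ),
      ∀ (g : GQ) (f : M.dualTwist (cycloChar p)) (m : M),
        E ((M.dualTwist (cycloChar p)).ρ g f) m = g • (E f (M.ρ g⁻¹ m)) := by
  classical
  have : NeZero p := ⟨(Fact.out : p.Prime).ne_zero⟩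
  have hval : ∀ (a : ZMod p) (x : μ), a • x = a.val • x := by
    intro a x
    conv_lhs => rw [← ZMod.natCast_zmod_val a]
    exact Nat.cast_smul_eq_nsmul (ZMod p) a.val x
  let ι₀ : ZMod p →ₗ[ZMod p] μ := LinearMap.toSpanSingleton (ZMod p) μ ζ
  have hι₀ : ∀ a : ZMod p, ι₀ a = a • ζ := fun a => rfl
  have hinj : Function.Injective ι₀ := by
    rw [injective_iff_map_eq_zero]
    intro a ha
    by_contra h
    apply hζ0
    have h2 : a⁻¹ • (a • ζ) = 0 := by rw [← hι₀, ha, smul_zero]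
    rwa [smul_smul, inv_mul_cancel₀ h, one_smul] at h2
  have hsurj : Function.Surjective ι₀ := by
    intro x
    obtain ⟨n, rfl⟩ := hζ x
    exact ⟨(n : ZMod p), Nat.cast_smul_eq_nsmul (ZMod p) n ζ⟩
  let ι : ZMod p ≃ₗ[ZMod p] μ := LinearEquiv.ofBijective ι₀ ⟨hinj, hsurj⟩
  let E : Module.Dual (ZMod p) M ≃+ (M →+ μ) :=
    { toFun := fun f => (ι.toLinearMap ∘ₗ f).toAddMonoidHom
      invFun := fun φ => ι.symm.toLinearMap ∘ₗ (φ.toZModLinearMap p)
      left_inv := by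
        intro f
        ext m
        simp
      right_inv := by
        intro φ
        ext m
        simp
      map_add' := by
        intro f f'
        ext m
        simp }
  have hE : ∀ (f : Module.Dual (ZMod p) M) (m : M), E f m = f m • ζ := fun f m => rfl
  refine ⟨E, ?_⟩
  intro g f m
  have h1 : (M.dualTwist (cycloChar p)).ρ g f
      = ((cycloChar p g : (ZMod p)ˣ) : ZMod p) • ((f : Module.Dual (ZMod p) M) ∘ₗ M.ρ g⁻¹) :=
    Rep.dualTwist_ρ_apply M (cycloChar p) g f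
  rw [h1, hE, hE]
  set a : ZMod p := (f : Module.Dual (ZMod p) M) (M.ρ g⁻¹ m) with ha
  have h2 : (((cycloChar p g : (ZMod p)ˣ) : ZMod p) •
      ((f : Module.Dual (ZMod p) M) ∘ₗ M.ρ g⁻¹)) m = ((cycloChar p g : (ZMod p)ˣ) : ZMod p) * a := rfl
  rw [h2, hval a ζ]
  have h3 : g • (a.val • ζ) = a.val • (g • ζ) :=
    (DistribSMul.toAddMonoidHom μ g).map_nsmul a.val ζ
  rw [h3, hχ g, ← hval, ← hval, smul_smul, mul_comm]

/-- G6, abstract form: `μ` is any cyclic group of order `p` on which `G_ℚ` acts through the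
cyclotomic character. -/
theorem exists_dualTwist_equiv {p : ℕ} [Fact p.Prime] (M : Rep (ZMod p) GQ)
    {μ : Type} [AddCommGroup μ] [DistribMulAction GQ μ] (ζ : μ) (hζ0 : ζ ≠ 0)
    (hζ : ∀ x : μ, ∃ n : ℕ, x = n • ζ) (hpζ : p • ζ = 0)
    (hχ : ∀ g : GQ, g • ζ = ((cycloChar p g : (ZMod p)ˣ) : ZMod p).val • ζ) :
    ∃ E : (M.dualTwist (cycloChar p)) ≃+ (M →+ μ),
      ∀ (g : GQ) (f : M.dualTwist (cycloChar p)) (m : M),
        E ((M.dualTwist (cycloChar p)).ρ g f) m = g • (E f (M.ρ g⁻¹ m)) := by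
  have hp : ∀ x : μ, p • x = 0 := by
    intro x
    obtain ⟨n, rfl⟩ := hζ x
    rw [smul_comm, hpζ, smul_zero]
  letI : Module (ZMod p) μ := AddCommGroup.zmodModule hp
  exact exists_dualTwist_equiv_aux M ζ hζ0 hζ hχ

/-- the cyclotomic character on an actual `p`-th root of unity of `ℚ̄` -/
theorem cycloChar_spec {p : ℕ} [Fact p.Prime] (g : GQ) (ζ : Qb) (hζ : ζ ^ p = 1) :
    g ζ = ζ ^ ((cycloChar p g : (ZMod p)ˣ) : ZMod p).val := by
  have : NeZero p := ⟨(Fact.out : p.Prime).ne_zero⟩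
  have ht : (rootsOfUnity.mkOfPowEq ζ hζ : Qbˣ) ∈ rootsOfUnity p Qb :=
    (rootsOfUnity.mkOfPowEq ζ hζ).2
  have h := modularCyclotomicCharacter.spec (L := Qb) (card_rootsOfUnity_eq_self p)
    (g : Qb ≃+* Qb) ht
  have h2 : g ζ = ζ ^ (((modularCyclotomicCharacter Qb (card_rootsOfUnity_eq_self p))
      (g : Qb ≃+* Qb) : (ZMod p)ˣ) : ZMod p).val := by
    simpa using h
  exact h2

end Dual

end Fermat.Agent.S55.Bridge
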