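/-
S55 / block BRIDGE, section Fields (task BRIDGE-F, helper68):
normal closures of `S`-fields are `S`-fields; conjugation of inertia groups;
fixing subgroups of finite normal subfields are normal of finite index.
-/
import Fermat.Agent.S55.Bridge.Basic

set_option autoImplicit false

open groupCohomology CategoryTheory ExtCitation
open scoped Pointwise

namespace Fermat.Agent.S55.Bridge

local notation "Qb" => AlgebraicClosure ℚ
local notation "GQ" => (AlgebraicClosure ℚ ≃ₐ[ℚ] AlgebraicClosure ℚ)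

section Fields

/-- `AlgebraicClosure ℚ` is an algebraic closure of `ℚ` for the default `ℚ`-algebra structure. -/
private theorem isAlgClosure_rat_aux : IsAlgClosure ℚ Qb := by
  have h : (DivisionRing.toRatAlgebra : Algebra ℚ Qb) = AlgebraicClosure.instAlgebra ℚ :=
    Subsingleton.elim _ _
  rw [h]
  infer_instance

attribute [local instance] isAlgClosure_rat_aux

/-- concrete description of the inertia subgroup. -/
private theorem mem_inertiaSubgroupIn_iff_aux (A : ValuationSubring Qb) (τ : GQ) :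
    τ ∈ A.inertiaSubgroupIn ℚ ↔
      τ • A = A ∧ ∀ x : Qb, x ∈ A → τ x - x ∈ A.nonunits := by
  constructor
  · rintro ⟨⟨τ', hdec⟩, hτ, rfl⟩
    refine ⟨MulAction.mem_stabilizer_iff.1 hdec, fun x hx => ?_⟩
    have h0 : MulSemiringAction.toRingAut (A.decompositionSubgroup ℚ)
        (IsLocalRing.ResidueField A) ⟨τ', hdec⟩ = 1 := hτ
    have h1 : (⟨τ', hdec⟩ : A.decompositionSubgroup ℚ) • IsLocalRing.residue A ⟨x, hx⟩
        = IsLocalRing.residue A ⟨x, hx⟩ := by
      have := congrArg (fun f => f (IsLocalRing.residue A ⟨x, hx⟩)) h0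
      exact this
    rw [← IsLocalRing.ResidueField.residue_smul, ← sub_eq_zero, ← map_sub,
      IsLocalRing.residue_eq_zero_iff, A.valuation_lt_one_iff] at h1
    rw [A.mem_nonunits_iff]
    exact h1
  · rintro ⟨hdec, hx⟩
    have hdec' : τ ∈ A.decompositionSubgroup ℚ := MulAction.mem_stabilizer_iff.2 hdec
    refine ⟨⟨τ, hdec'⟩, ?_, rfl⟩
    show MulSemiringAction.toRingAut (A.decompositionSubgroup ℚ)
        (IsLocalRing.ResidueField A) ⟨τ, hdec'⟩ = 1
    ext y
    obtain ⟨a, rfl⟩ := IsLocalRing.residue_surjective y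
    show (⟨τ, hdec'⟩ : A.decompositionSubgroup ℚ) • IsLocalRing.residue A a
        = IsLocalRing.residue A a
    rw [← IsLocalRing.ResidueField.residue_smul, ← sub_eq_zero, ← map_sub,
      IsLocalRing.residue_eq_zero_iff, A.valuation_lt_one_iff]
    have := hx a a.2
    rw [A.mem_nonunits_iff] at this
    exact this

/-- nonunits of a translated valuation subring. -/
private theorem mem_nonunits_smul_iff_aux (g : GQ) (A : ValuationSubring Qb) (x : Qb) :
    x ∈ (g • A).nonunits ↔ g⁻¹ x ∈ A.nonunits := by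
  rw [ValuationSubring.mem_nonunits_iff_or, ValuationSubring.mem_nonunits_iff_or,
    ValuationSubring.mem_pointwise_smul_iff_inv_smul_mem]
  have h1 : g⁻¹ x = 0 ↔ x = 0 := map_eq_zero_iff _ (g⁻¹).injective
  have h2 : g⁻¹ • x⁻¹ = (g⁻¹ x)⁻¹ := map_inv₀ (g⁻¹) x
  rw [h1, h2]

theorem exists_normal_finiteDimensional (F : IntermediateField ℚ Qb) (hF : FiniteDimensional ℚ F) :
    ∃ F' : IntermediateField ℚ Qb, F ≤ F' ∧ FiniteDimensional ℚ F' ∧ Normal ℚ F' :=
  ⟨IntermediateField.normalClosure ℚ F Qb, F.le_normalClosure,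
    normalClosure.is_finiteDimensional ℚ F Qb, normalClosure.normal ℚ F Qb⟩

/-- conjugation of inertia groups -/
theorem conj_mem_inertiaSubgroupIn_smul (A : ValuationSubring Qb) (σ τ : GQ)
    (hτ : τ ∈ A.inertiaSubgroupIn ℚ) :
    σ * τ * σ⁻¹ ∈ (σ • A : ValuationSubring Qb).inertiaSubgroupIn ℚ := by
  rw [mem_inertiaSubgroupIn_iff_aux] at hτ ⊢
  obtain ⟨h1, h2⟩ := hτ
  refine ⟨?_, fun x hx => ?_⟩
  · rw [← mul_smul, inv_mul_cancel_right, mul_smul, h1]
  · rw [mem_nonunits_smul_iff_aux]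
    rw [ValuationSubring.mem_pointwise_smul_iff_inv_smul_mem] at hx
    have h3 := h2 (σ⁻¹ x) hx
    have h4 : σ⁻¹ ((σ * τ * σ⁻¹) x - x) = τ (σ⁻¹ x) - σ⁻¹ x := by
      rw [map_sub]
      congr 1
      show σ⁻¹ (σ (τ (σ⁻¹ x))) = τ (σ⁻¹ x)
      exact σ.symm_apply_apply _
    rw [h4]
    exact h3

theorem liesOverPrime_smul (A : ValuationSubring Qb) (σ : GQ) (q : ℕ) (h : A.LiesOverPrime q) :
    (σ • A : ValuationSubring Qb).LiesOverPrime q := by
  show (q : Qb) ∈ (σ • A).nonunits
  rw [mem_nonunits_smul_iff_aux]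
  have h' : (q : Qb) ∈ A.nonunits := h
  simpa using h'

theorem isUnramifiedOutside_map {S : Finset Nat.Primes} {F : IntermediateField ℚ Qb}
    (hF : F.IsUnramifiedOutside S) (σ : GQ) :
    (F.map (σ : Qb →ₐ[ℚ] Qb)).IsUnramifiedOutside S := by
  have := hF.1
  refine ⟨?_, fun q hq A hA τ hτ => ?_⟩
  · exact LinearEquiv.finiteDimensional
      (IntermediateField.equivMap F (σ : Qb →ₐ[ℚ] Qb)).toLinearEquiv
  · rw [IntermediateField.mem_fixingSubgroup_iff]
    rintro y ⟨x, hx, rfl⟩
    have h1 := conj_mem_inertiaSubgroupIn_smul A σ⁻¹ τ hτ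
    have h2 := hF.2 q hq (σ⁻¹ • A) (liesOverPrime_smul A σ⁻¹ q hA) h1
    rw [IntermediateField.mem_fixingSubgroup_iff] at h2
    have h3 := h2 x hx
    rw [inv_inv] at h3
    have h4 : σ⁻¹ (τ (σ x)) = x := h3
    show τ (σ x) = σ x
    have h5 := congrArg σ h4
    rwa [show σ (σ⁻¹ (τ (σ x))) = τ (σ x) from σ.apply_symm_apply _] at h5

theorem exists_normal_isUnramifiedOutside {S : Finset Nat.Primes} {F : IntermediateField ℚ Qb}
    (hF : F.IsUnramifiedOutside S) :
    ∃ F' : IntermediateField ℚ Qb, F ≤ F' ∧ F'.IsUnramifiedOutside S ∧ Normal ℚ F' := by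
  have := hF.1
  refine ⟨IntermediateField.normalClosure ℚ F Qb, F.le_normalClosure,
    ⟨normalClosure.is_finiteDimensional ℚ F Qb, fun q hq A hA => ?_⟩,
    normalClosure.normal ℚ F Qb⟩
  have hdef : IntermediateField.normalClosure ℚ F Qb = ⨆ f : GQ, F.map (f : Qb →ₐ[ℚ] Qb) :=
    IntermediateField.normalClosure_def'' F
  rw [← IntermediateField.le_iff_le, hdef]
  refine iSup_le fun σ => ?_
  rw [IntermediateField.le_iff_le]
  exact (isUnramifiedOutside_map hF σ).2 q hq A hA

/-- fixing subgroups of finite normal subfields are normal of finite index -/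
theorem fixingSubgroup_normal (F : IntermediateField ℚ Qb) [Normal ℚ F] :
    F.fixingSubgroup.Normal := by
  have hN : @Normal ℚ F _ _ F.algebra' := ‹Normal ℚ F›
  rw [← @IntermediateField.restrictNormalHom_ker ℚ Qb _ _ _ F hN]
  exact MonoidHom.normal_ker _

theorem fixingSubgroup_finiteIndex (F : IntermediateField ℚ Qb) [FiniteDimensional ℚ F] :
    F.fixingSubgroup.FiniteIndex := by
  constructor
  rw [← IntermediateField.finrank_eq_fixingSubgroup_index]
  exact Module.finrank_pos.ne'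

end Fields

end Fermat.Agent.S55.Bridge
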