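/-
S55 / block BRIDGE : section Levels (`IsLevel` versus the Prelude predicates).
-/
import Fermat.Agent.S55.Bridge.Basic

set_option autoImplicit false

open groupCohomology CategoryTheory ExtCitation
open scoped Pointwise

namespace Fermat.Agent.S55.Bridge

local notation "Qb" => AlgebraicClosure ℚ
local notation "GQ" => (AlgebraicClosure ℚ ≃ₐ[ℚ] AlgebraicClosure ℚ)

section Levels

variable {G : Type} [Group G] {𝓝 : LevelSys G} {P : Subgroup G → Prop}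

theorem isLevel_zero (𝓝 : LevelSys G) {X : Type} (f : (Fin 0 → G) → X) : IsLevel 𝓝 f := by
  obtain ⟨N, hN⟩ := 𝓝.nonempty
  exact ⟨N, hN, fun g h _ => congrArg f (Subsingleton.elim g h)⟩

theorem Cofinal.isLevel_one_iff (h : Cofinal 𝓝 P) {X : Type} (f : G → X) :
    IsLevel 𝓝 (fun g : Fin 1 → G => f (g 0)) ↔
      ∃ U, P U ∧ ∀ g s, s ∈ U → f (g * s) = f g := by
  constructor
  · rintro ⟨N, hN, hf⟩
    obtain ⟨U, hU, hUN⟩ := h.exists_le N hN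
    refine ⟨U, hU, fun g s hs => ?_⟩
    refine (hf (fun _ => g) (fun _ => g * s) fun _ => ?_).symm
    simpa using hUN hs
  · rintro ⟨U, hU, hf⟩
    obtain ⟨N, hN, hNU⟩ := h.exists_ge U hU
    refine ⟨N, hN, fun g k hgk => ?_⟩
    have h1 := hf (g 0) ((g 0)⁻¹ * k 0) (hNU (hgk 0))
    rw [mul_inv_cancel_left] at h1
    exact h1.symm

theorem Cofinal.isLevel_two_iff (h : Cofinal 𝓝 P) {X : Type} (f : G × G → X) :
    IsLevel 𝓝 (fun g : Fin 2 → G => f (g 0, g 1)) ↔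
      ∃ U, P U ∧ ∀ g g' s s', s ∈ U → s' ∈ U → f (g * s, g' * s') = f (g, g') := by
  constructor
  · rintro ⟨N, hN, hf⟩
    obtain ⟨U, hU, hUN⟩ := h.exists_le N hN
    refine ⟨U, hU, fun g g' s s' hs hs' => ?_⟩
    refine (hf ![g, g'] ![g * s, g' * s'] fun i => ?_).symm
    fin_cases i
    · simpa using hUN hs
    · simpa using hUN hs'
  · rintro ⟨U, hU, hf⟩
    obtain ⟨N, hN, hNU⟩ := h.exists_ge U hU
    refine ⟨N, hN, fun g k hgk => ?_⟩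
    have h1 := hf (g 0) (g 1) ((g 0)⁻¹ * k 0) ((g 1)⁻¹ * k 1) (hNU (hgk 0)) (hNU (hgk 1))
    rw [mul_inv_cancel_left, mul_inv_cancel_left] at h1
    exact h1.symm

theorem Cofinal.comap {H : Type} [Group H] (r : H →* G) (h : Cofinal 𝓝 P) :
    Cofinal (𝓝.comap r) (fun U => ∃ V, P V ∧ U = V.comap r) := by
  constructor
  · rintro _ ⟨N, hN, rfl⟩
    obtain ⟨U, hU, hUN⟩ := h.exists_le N hN
    exact ⟨U.comap r, ⟨U, hU, rfl⟩, Subgroup.comap_mono hUN⟩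
  · rintro _ ⟨V, hV, rfl⟩
    obtain ⟨N, hN, hNV⟩ := h.exists_ge V hV
    exact ⟨N.comap r, ⟨N, hN, rfl⟩, Subgroup.comap_mono hNV⟩

theorem Cofinal.congr {P' : Subgroup G → Prop} (h : Cofinal 𝓝 P) (hP : ∀ U, P U ↔ P' U) :
    Cofinal 𝓝 P' := by
  constructor
  · intro N hN
    obtain ⟨U, hU, hUN⟩ := h.exists_le N hN
    exact ⟨U, (hP U).mp hU, hUN⟩
  · intro U hU
    exact h.exists_ge U ((hP U).mpr hU)

/-- the Prelude predicates in terms of `IsLevel` -/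
theorem isLevelConstant₁_iff_isLevel {r : G →* GQ} (h : Cofinal 𝓝 (PAll r)) {X : Type}
    (f : G → X) : IsLevelConstant₁ r f ↔ IsLevel 𝓝 (fun g : Fin 1 → G => f (g 0)) := by
  rw [h.isLevel_one_iff]
  constructor
  · rintro ⟨F, hF, hf⟩
    exact ⟨_, ⟨F, hF, rfl⟩, fun g s hs => hf g s hs⟩
  · rintro ⟨_, ⟨F, hF, rfl⟩, hf⟩
    exact ⟨F, hF, fun g s hs => hf g s hs⟩

theorem isLevelConstant₂_iff_isLevel {r : G →* GQ} (h : Cofinal 𝓝 (PAll r)) {X : Type}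
    (f : G × G → X) :
    IsLevelConstant₂ r f ↔ IsLevel 𝓝 (fun g : Fin 2 → G => f (g 0, g 1)) := by
  rw [h.isLevel_two_iff]
  constructor
  · rintro ⟨F, hF, hf⟩
    exact ⟨_, ⟨F, hF, rfl⟩, fun g g' s s' hs hs' => hf g g' s s' hs hs'⟩
  · rintro ⟨_, ⟨F, hF, rfl⟩, hf⟩
    exact ⟨F, hF, fun g g' s s' hs hs' => hf g g' s s' hs hs'⟩

theorem isLevelConstantS₁_iff_isLevel {S : Finset Nat.Primes} {𝓝 : LevelSys GQ}
    (h : Cofinal 𝓝 (PS S)) {X : Type} (f : GQ → X) :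
    IsLevelConstantS₁ S f ↔ IsLevel 𝓝 (fun g : Fin 1 → GQ => f (g 0)) := by
  rw [h.isLevel_one_iff]
  constructor
  · rintro ⟨F, hF, hf⟩
    exact ⟨_, ⟨F, hF, rfl⟩, fun g s hs => hf g s hs⟩
  · rintro ⟨_, ⟨F, hF, rfl⟩, hf⟩
    exact ⟨F, hF, fun g s hs => hf g s hs⟩

theorem isLevelConstantS₂_iff_isLevel {S : Finset Nat.Primes} {𝓝 : LevelSys GQ}
    (h : Cofinal 𝓝 (PS S)) {X : Type} (f : GQ × GQ → X) :
    IsLevelConstantS₂ S f ↔ IsLevel 𝓝 (fun g : Fin 2 → GQ => f (g 0, g 1)) := by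
  rw [h.isLevel_two_iff]
  constructor
  · rintro ⟨F, hF, hf⟩
    exact ⟨_, ⟨F, hF, rfl⟩, fun g g' s s' hs hs' => hf g g' s s' hs hs'⟩
  · rintro ⟨_, ⟨F, hF, rfl⟩, hf⟩
    exact ⟨F, hF, fun g g' s s' hs hs' => hf g g' s s' hs hs'⟩

/-- `PAll r` is the pull-back of `PAll id`. -/
theorem cofinal_PAll_comap {𝓝 : LevelSys GQ} (h : Cofinal 𝓝 (PAll (MonoidHom.id GQ)))
    (r : G →* GQ) : Cofinal (𝓝.comap r) (PAll r) := by
  refine (h.comap r).congr fun U => ?_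
  constructor
  · rintro ⟨_, ⟨F, hF, rfl⟩, rfl⟩
    exact ⟨F, hF, rfl⟩
  · rintro ⟨F, hF, rfl⟩
    exact ⟨_, ⟨F, hF, rfl⟩, rfl⟩

end Levels

end Fermat.Agent.S55.Bridge
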