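/-
S55 / block BRIDGE : sections Pairing and Final (G7).  Owner: helper206.
Equal finite cardinality gives a nondegenerate pairing.
-/
import Fermat.Agent.S55.Bridge.Basic

set_option autoImplicit false

open groupCohomology CategoryTheory ExtCitation
open scoped Pointwise

namespace Fermat.Agent.S55.Bridge

local notation "Qb" => AlgebraicClosure ℚ
local notation "GQ" => (AlgebraicClosure ℚ ≃ₐ[ℚ] AlgebraicClosure ℚ)

section Pairing

theorem exists_pairing_of_finrank_eq {K V W : Type} [Field K] [AddCommGroup V] [Module K V]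
    [AddCommGroup W] [Module K W] [FiniteDimensional K V] [FiniteDimensional K W]
    (h : Module.finrank K V = Module.finrank K W) :
    ∃ B : V →ₗ[K] W →ₗ[K] K,
      (∀ y, (∀ x, B y x = 0) → y = 0) ∧ (∀ x, (∀ y, B y x = 0) → x = 0) := by
  have h' : Module.finrank K V = Module.finrank K (Module.Dual K W) := by
    rw [Subspace.dual_finrank_eq, h]
  let ψ : V ≃ₗ[K] Module.Dual K W := LinearEquiv.ofFinrankEq V (Module.Dual K W) h'
  refine ⟨ψ.toLinearMap, ?_, ?_⟩
  · intro y hy
    have : ψ y = 0 := LinearMap.ext hy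
    exact ψ.map_eq_zero_iff.mp this
  · intro x hx
    rw [← Module.forall_dual_apply_eq_zero_iff K x]
    intro f
    obtain ⟨y, rfl⟩ := ψ.surjective f
    exact hx y

theorem exists_pairing_of_card_eq {p : ℕ} [Fact p.Prime] {V W : Type} [AddCommGroup V]
    [Module (ZMod p) V] [AddCommGroup W] [Module (ZMod p) W] [Finite V]
    (h : Nat.card V = Nat.card W) :
    ∃ B : V →ₗ[ZMod p] W →ₗ[ZMod p] ZMod p,
      (∀ y, (∀ x, B y x = 0) → y = 0) ∧ (∀ x, (∀ y, B y x = 0) → x = 0) := by
  have hW : Finite W := by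
    apply Nat.finite_of_card_ne_zero
    rw [← h]
    exact Nat.card_pos.ne'
  have : FiniteDimensional (ZMod p) V := Module.Finite.of_finite
  have : FiniteDimensional (ZMod p) W := Module.Finite.of_finite
  apply exists_pairing_of_finrank_eq
  have h1 : Nat.card V = Nat.card (ZMod p) ^ Module.finrank (ZMod p) V :=
    Module.natCard_eq_pow_finrank
  have h2 : Nat.card W = Nat.card (ZMod p) ^ Module.finrank (ZMod p) W :=
    Module.natCard_eq_pow_finrank
  rw [h1, h2, Nat.card_zmod] at h
  exact Nat.pow_right_injective (Fact.out : p.Prime).two_le h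

end Pairing

section Final

/-- The frozen conclusion from an equality of cardinalities of the frozen groups. -/
theorem frozen_of_card {p : ℕ} [Fact p.Prime] (S : Finset Nat.Primes) (M : Rep (ZMod p) GQ)
    (hfin : Finite ↥(sha₂ S M))
    (hcard : Nat.card ↥(sha₁ S (M.dualTwist (cycloChar p))) = Nat.card ↥(sha₂ S M)) :
    ∃ B : sha₁ S (M.dualTwist (cycloChar p)) →ₗ[ZMod p] sha₂ S M →ₗ[ZMod p] ZMod p,
      (∀ y, (∀ x, B y x = 0) → y = 0) ∧ (∀ x, (∀ y, B y x = 0) → x = 0) := by
  have : Finite ↥(sha₁ S (M.dualTwist (cycloChar p))) := by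
    apply Nat.finite_of_card_ne_zero
    rw [hcard]
    exact Nat.card_pos.ne'
  exact exists_pairing_of_card_eq hcard

end Final

end Fermat.Agent.S55.Bridge
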