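/-
S55 / block BRIDGE : the `G`-module (in the unbundled style of `Coh/`) underlying a `Rep`.
-/
import Fermat.Agent.S55.Arith.Defs
import Fermat.Agent.S55.Bridge.Basic

set_option autoImplicit false

namespace Fermat.Agent.S55.Bridge

/-- The `G`-module underlying a representation. -/
def RepMod {k G : Type} [CommRing k] [Group G] (M : Rep k G) : Type := M

namespace RepMod

variable {k G : Type} [CommRing k] [Group G] (M : Rep k G)

instance : AddCommGroup (RepMod M) := inferInstanceAs (AddCommGroup M)

/-- The identity map `M ≃+ RepMod M`. -/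
def of : M ≃+ RepMod M := AddEquiv.refl M

instance : DistribMulAction G (RepMod M) where
  smul g m := of M (M.ρ g ((of M).symm m))
  one_smul m := by
    change of M (M.ρ 1 ((of M).symm m)) = m
    rw [map_one]; rfl
  mul_smul g h m := by
    change of M (M.ρ (g * h) ((of M).symm m)) = of M (M.ρ g (M.ρ h ((of M).symm m)))
    rw [map_mul]; rfl
  smul_zero g := by
    change of M (M.ρ g 0) = 0
    rw [map_zero, map_zero]
  smul_add g m m' := by
    change of M (M.ρ g ((of M).symm m + (of M).symm m')) =
      of M (M.ρ g ((of M).symm m)) + of M (M.ρ g ((of M).symm m'))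
    rw [map_add, map_add]

theorem of_ρ (g : G) (m : M) : of M (M.ρ g m) = g • of M m := rfl

theorem smul_def (g : G) (m : RepMod M) : g • m = of M (M.ρ g ((of M).symm m)) := rfl

instance [Finite M] : Finite (RepMod M) := inferInstanceAs (Finite M)

theorem nsmul_eq_zero {p : ℕ} (M : Rep (ZMod p) G) (m : RepMod M) : p • m = 0 := by
  obtain ⟨x, rfl⟩ := (of M).surjective m
  rw [← map_nsmul]
  have : p • x = 0 := by
    rw [← Nat.cast_smul_eq_nsmul (ZMod p), ZMod.natCast_self, zero_smul]
  rw [this, map_zero]

end RepMod

end Fermat.Agent.S55.Bridge
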