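/-
S55 / block BRIDGE : section SmoothRep (G1).

* `exists_level_of_normal_subgroup` : a normal subgroup of `G_ℚ` containing the fixing subgroup of
  a finite extension and all the inertia groups outside `S` is the fixing subgroup of a finite
  Galois extension unramified outside `S`.
* `exists_level_of_rep` : the frozen hypotheses say that `M` is inflated from a Galois `S`-field.
* `exists_level_of_cycloChar` : `ℚ(μ_p)` is an `S`-field when `p ∈ S`.
-/
import Fermat.Agent.S55.Bridge.Basic
import Fermat.Agent.Lib.Frobenius.Integers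

set_option autoImplicit false
set_option linter.style.haveILetI false

open groupCohomology CategoryTheory ExtCitation
open scoped Pointwise

namespace Fermat.Agent.S55.Bridge

local notation "Qb" => AlgebraicClosure ℚ
local notation "GQ" => (AlgebraicClosure ℚ ≃ₐ[ℚ] AlgebraicClosure ℚ)

section SmoothRep

/-- A normal subgroup of `G_ℚ` containing the fixing subgroup of a finite extension and all the
inertia groups outside `S` is the fixing subgroup of a finite Galois `S`-field. -/
theorem exists_level_of_normal_subgroup (S : Finset Nat.Primes) (K : Subgroup GQ) [hK : K.Normal]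
    (F1 : IntermediateField ℚ Qb) [FiniteDimensional ℚ F1] (h1 : F1.fixingSubgroup ≤ K)
    (hur : ∀ q : Nat.Primes, q ∉ S → ∀ A : ValuationSubring Qb,
      A.LiesOverPrime (q : ℕ) → A.inertiaSubgroupIn ℚ ≤ K) :
    ∃ F : IntermediateField ℚ Qb, F.IsUnramifiedOutside S ∧ Normal ℚ F ∧
      F.fixingSubgroup = K := by
  haveI : IsGalois ℚ Qb := Fermat.Agent.Lib.Frobenius.isGalois_rat
  have hopen : IsOpen (K : Set GQ) :=
    Subgroup.isOpen_mono h1 (IntermediateField.fixingSubgroup_isOpen F1)
  have hclosed : IsClosed (K : Set GQ) := Subgroup.isClosed_of_isOpen K hopen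
  have hfix : (IntermediateField.fixedField K).fixingSubgroup = K :=
    InfiniteGalois.fixingSubgroup_fixedField (⟨K, hclosed⟩ : ClosedSubgroup GQ)
  have hle : IntermediateField.fixedField K ≤ F1 := by
    rw [← InfiniteGalois.fixedField_fixingSubgroup F1]
    exact IntermediateField.fixedField_antitone h1
  refine ⟨IntermediateField.fixedField K, ⟨?_, ?_⟩, ?_, hfix⟩
  · exact FiniteDimensional.of_injective (IntermediateField.inclusion hle).toLinearMap
      (IntermediateField.inclusion_injective hle)
  · intro q hq A hA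
    rw [hfix]
    exact hur q hq A hA
  · have : (IntermediateField.fixedField K).fixingSubgroup.Normal := by rw [hfix]; exact hK
    have hgal := (InfiniteGalois.normal_iff_isGalois _).1 this
    exact hgal.to_normal

/-- G1 : the frozen hypotheses say that `M` is inflated from a Galois `S`-field. -/
theorem exists_level_of_rep {p : ℕ} [Fact p.Prime] (S : Finset Nat.Primes)
    (M : Rep (ZMod p) GQ) [FiniteDimensional (ZMod p) M]
    (hsm : ∀ m : M, ∃ F : IntermediateField ℚ Qb, FiniteDimensional ℚ F ∧
      ∀ s ∈ F.fixingSubgroup, M.ρ s m = m)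
    (hMur : ∀ q : Nat.Primes, q ∉ S → ∀ A : ValuationSubring Qb,
      A.LiesOverPrime (q : ℕ) → ∀ g ∈ A.inertiaSubgroupIn ℚ, M.ρ g = 1) :
    ∃ F : IntermediateField ℚ Qb, F.IsUnramifiedOutside S ∧ Normal ℚ F ∧
      ∀ s ∈ F.fixingSubgroup, M.ρ s = 1 := by
  haveI : Finite M := Module.finite_of_finite (ZMod p)
  choose F hFfin hF using hsm
  haveI : ∀ m, FiniteDimensional ℚ (F m) := hFfin
  haveI : FiniteDimensional ℚ (⨆ m, F m : IntermediateField ℚ Qb) :=
    IntermediateField.finiteDimensional_iSup_of_finite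
  obtain ⟨F', h1, h2, h3⟩ := exists_level_of_normal_subgroup S M.ρ.ker (⨆ m, F m) (by
      intro s hs
      rw [MonoidHom.mem_ker]
      ext m
      exact hF m s (IntermediateField.fixingSubgroup_antitone (le_iSup F m) hs))
    (fun q hq A hA g hg => MonoidHom.mem_ker.2 (hMur q hq A hA g hg))
  exact ⟨F', h1, h2, fun s hs => MonoidHom.mem_ker.1 (h3 ▸ hs)⟩

/-- An element of the inertia group at `A` is congruent to the identity on `A`. -/
private theorem residue_apply_of_mem_inertia {A : ValuationSubring Qb} {τ : GQ}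
    (h : τ ∈ A.inertiaSubgroupIn ℚ) {x : Qb} (hx : x ∈ A) : τ x - x ∈ A.nonunits := by
  obtain ⟨⟨τ', hdec⟩, hτ, rfl⟩ := h
  have h0 : MulSemiringAction.toRingAut (A.decompositionSubgroup ℚ)
      (IsLocalRing.ResidueField A) ⟨τ', hdec⟩ = 1 := hτ
  have h1 : (⟨τ', hdec⟩ : A.decompositionSubgroup ℚ) • IsLocalRing.residue A ⟨x, hx⟩
      = IsLocalRing.residue A ⟨x, hx⟩ := by
    have := congrArg (fun f => f (IsLocalRing.residue A ⟨x, hx⟩)) h0
    exact this
  rw [← IsLocalRing.ResidueField.residue_smul, ← sub_eq_zero, ← map_sub,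
    IsLocalRing.residue_eq_zero_iff, A.valuation_lt_one_iff] at h1
  rw [A.mem_nonunits_iff]
  exact h1

/-- a `p`-th root of unity congruent to `1` modulo a place over `q ≠ p` is `1`. -/
private theorem eq_one_of_sub_one_mem_nonunits {p q : ℕ} (hpq : Nat.Coprime p q)
    {A : ValuationSubring Qb} (hA : A.LiesOverPrime q) {u : Qb} (hu : u ^ p = 1)
    (h : u - 1 ∈ A.nonunits) : u = 1 := by
  by_contra hne
  have huA : u ∈ A := by
    have : u - 1 ∈ A := A.nonunits_subset h
    simpa using A.add_mem _ _ this A.one_mem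
  have hsum : ∑ i ∈ Finset.range p, u ^ i = 0 := by
    have := geom_sum_mul u p
    rw [hu, sub_self] at this
    exact (mul_eq_zero.1 this).resolve_right (sub_ne_zero.2 hne)
  have hsum' : ∑ i ∈ Finset.range p, (⟨u, huA⟩ : A) ^ i = 0 := by
    apply Subtype.ext
    simpa using hsum
  have hres : IsLocalRing.residue A ⟨u, huA⟩ = 1 := by
    rw [← sub_eq_zero, ← map_one (IsLocalRing.residue A), ← map_sub,
      IsLocalRing.residue_eq_zero_iff, A.valuation_lt_one_iff]
    exact (A.mem_nonunits_iff).1 h
  have hp0 : ((p : ℕ) : IsLocalRing.ResidueField A) = 0 := by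
    have := congrArg (IsLocalRing.residue A) hsum'
    rw [map_sum, map_zero] at this
    simp only [map_pow, hres, one_pow, Finset.sum_const, Finset.card_range, nsmul_eq_mul,
      mul_one] at this
    exact this
  have hq0 : ((q : ℕ) : IsLocalRing.ResidueField A) = 0 := by
    have h1 : IsLocalRing.residue A (q : A) = 0 := by
      rw [IsLocalRing.residue_eq_zero_iff, A.valuation_lt_one_iff]
      have hA' : (q : Qb) ∈ A.nonunits := hA
      exact (A.mem_nonunits_iff).1 (by simpa using hA')
    simpa using h1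
  obtain ⟨a, b, hab⟩ := (Nat.isCoprime_iff_coprime.2 hpq)
  have := congrArg (Int.cast : ℤ → IsLocalRing.ResidueField A) hab
  simp [hp0, hq0] at this

/-- inertia at `q ≠ p` acts trivially on the `p`-th roots of unity. -/
private theorem apply_eq_of_mem_inertia {p q : ℕ} (hp : 0 < p) (hpq : Nat.Coprime p q)
    {A : ValuationSubring Qb} (hA : A.LiesOverPrime q) {g : GQ}
    (hg : g ∈ A.inertiaSubgroupIn ℚ) {t : Qb} (ht : t ^ p = 1) : g t = t := by
  have ht0 : t ≠ 0 := by
    rintro rfl
    simp [hp.ne'] at ht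
  have hval : A.valuation t = 1 := by
    have : A.valuation t ^ p = 1 := by rw [← map_pow, ht, map_one]
    exact (pow_eq_one_iff_left hp.ne').1 this
  have htA : t ∈ A := (A.valuation_le_one_iff t).1 hval.le
  have h1 := residue_apply_of_mem_inertia hg htA
  have h2 : g t * t⁻¹ - 1 ∈ A.nonunits := by
    rw [A.mem_nonunits_iff] at h1 ⊢
    have : g t * t⁻¹ - 1 = (g t - t) * t⁻¹ := by field_simp
    rw [this, map_mul, map_inv₀, hval, inv_one, mul_one]
    exact h1
  have h3 : (g t * t⁻¹) ^ p = 1 := by
    rw [mul_pow, inv_pow, ← map_pow, ht, map_one, inv_one, mul_one]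
  have h4 := eq_one_of_sub_one_mem_nonunits hpq hA h3 h2
  field_simp at h4
  exact h4

/-- criterion for the triviality of the cyclotomic character. -/
private theorem cycloChar_eq_one {p : ℕ} [Fact p.Prime] {g : GQ}
    (h : ∀ t : Qb, t ^ p = 1 → g t = t) : cycloChar p g = 1 := by
  haveI : NeZero p := ⟨(Fact.out : p.Prime).ne_zero⟩
  haveI : Fact (1 < p) := ⟨(Fact.out : p.Prime).one_lt⟩
  have := modularCyclotomicCharacter.unique (L := Qb) (card_rootsOfUnity_eq_self p)
    (g : Qb ≃+* Qb) (c := 1) (by
      intro t ht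
      rw [ZMod.val_one, pow_one]
      refine h t ?_
      have := (mem_rootsOfUnity _ _).1 ht
      have h2 := congrArg Units.val this
      rwa [Units.val_pow_eq_pow_val, Units.val_one] at h2)
  apply Units.ext
  exact this.symm

/-- the field of `p`-th roots of unity is an `S`-field when `p ∈ S` -/
theorem exists_level_of_cycloChar {p : ℕ} [Fact p.Prime] (S : Finset Nat.Primes)
    (hpS : pPrime p ∈ S) :
    ∃ F : IntermediateField ℚ Qb, F.IsUnramifiedOutside S ∧ Normal ℚ F ∧
      ∀ s ∈ F.fixingSubgroup, cycloChar p s = 1 := by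
  have hp : p.Prime := Fact.out
  haveI : NeZero p := ⟨hp.ne_zero⟩
  haveI : NeZero (p : Qb) := ⟨Nat.cast_ne_zero.mpr hp.ne_zero⟩
  obtain ⟨ζ, hζ⟩ := HasEnoughRootsOfUnity.exists_primitiveRoot Qb p
  have hint : IsIntegral ℚ ζ := (hζ.isIntegral hp.pos).tower_top
  haveI : FiniteDimensional ℚ (IntermediateField.adjoin ℚ {ζ}) :=
    IntermediateField.adjoin.finiteDimensional hint
  obtain ⟨F', h1, h2, h3⟩ := exists_level_of_normal_subgroup S (cycloChar p).ker
    (IntermediateField.adjoin ℚ {ζ}) (by
      intro s hs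
      rw [MonoidHom.mem_ker]
      refine cycloChar_eq_one fun t ht => ?_
      obtain ⟨i, -, rfl⟩ := hζ.eq_pow_of_pow_eq_one ht
      have : s ζ = ζ := (IntermediateField.mem_fixingSubgroup_iff _ _).1 hs ζ
        (IntermediateField.mem_adjoin_simple_self ℚ ζ)
      rw [map_pow, this])
    (fun q hq A hA g hg => MonoidHom.mem_ker.2 (cycloChar_eq_one fun t ht =>
      apply_eq_of_mem_inertia hp.pos ((Nat.coprime_primes hp q.2).2 (by
        rintro rfl
        exact hq hpS)) hA hg ht))
  exact ⟨F', h1, h2, fun s hs => MonoidHom.mem_ker.1 (h3 ▸ hs)⟩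

end SmoothRep

end Fermat.Agent.S55.Bridge
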