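/-
S55 / block BRIDGE : the top of the block.  The frozen statement S55 follows from the equality of
cardinalities `|Sha^2_S(N)| = |Sha^1_S(Hom(N, μ_p))|` in the vocabulary of `Coh/` and `Arith/`.
-/
import Fermat.Agent.S55.Arith.Sha
import Fermat.Agent.S55.Bridge.RepMod
import Fermat.Agent.S55.Bridge.Levels
import Fermat.Agent.S55.Bridge.Fields
import Fermat.Agent.S55.Bridge.Dual
import Fermat.Agent.S55.Bridge.Pairing
import Fermat.Agent.S55.Bridge.SmoothRep
import Fermat.Agent.S55.Bridge.Sha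

set_option autoImplicit false

open groupCohomology CategoryTheory ExtCitation
open scoped Pointwise

namespace Fermat.Agent.S55.Bridge

/-! ### Level systems -/

theorem isStableField_of_normal (F : IntermediateField ℚ Qb) (h : Normal ℚ F) :
    IsStableField F := by
  intro g x hx
  have : IsAlgClosure ℚ Qb := ⟨inferInstance, AlgebraicClosure.isAlgebraic ℚ⟩
  have : Normal ℚ Qb := IsAlgClosure.normal ℚ Qb
  have h1 := (IntermediateField.normal_iff_forall_map_le' (K := F)).1 h g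
  exact h1 ⟨x, hx, rfl⟩

theorem cofinal_lvlAll : Cofinal lvlAll (PAll (MonoidHom.id GQ)) where
  exists_le := by
    rintro _ ⟨F, hF, _, rfl⟩
    exact ⟨_, ⟨F, hF, (Subgroup.comap_id _).symm⟩, le_rfl⟩
  exists_ge := by
    rintro _ ⟨F, hF, rfl⟩
    obtain ⟨F', hle, hF', hn⟩ := exists_normal_finiteDimensional F hF
    refine ⟨_, ⟨F', hF', isStableField_of_normal F' hn, rfl⟩, ?_⟩
    rw [Subgroup.comap_id]
    exact IntermediateField.fixingSubgroup_antitone hle

theorem cofinal_lvlS (S : Finset Nat.Primes) : Cofinal (lvlS S) (PS S) where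
  exists_le := by
    rintro _ ⟨F, hF, _, rfl⟩
    exact ⟨_, ⟨F, hF, rfl⟩, le_rfl⟩
  exists_ge := by
    rintro _ ⟨F, hF, rfl⟩
    obtain ⟨F', hle, hF', hn⟩ := exists_normal_isUnramifiedOutside hF
    exact ⟨_, ⟨F', hF', isStableField_of_normal F' hn, rfl⟩,
      IntermediateField.fixingSubgroup_antitone hle⟩

theorem cofinal_lvlLoc (q : Nat.Primes) : Cofinal (lvlLoc q) (PAll (ιv q)) :=
  cofinal_PAll_comap cofinal_lvlAll (ιv q)

/-! ### Smoothness (G1) -/

theorem smooth_of_level {k : Type} [CommRing k] (S : Finset Nat.Primes) (M : Rep k GQ)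
    (h : ∃ F : IntermediateField ℚ Qb, F.IsUnramifiedOutside S ∧ Normal ℚ F ∧
      ∀ s ∈ F.fixingSubgroup, M.ρ s = 1) : Smooth (lvlS S) (RepMod M) where
  exists_fix := by
    obtain ⟨F, hF, hn, hfix⟩ := h
    intro a
    refine ⟨_, ⟨F, hF, isStableField_of_normal F hn, rfl⟩, fun n hn => ?_⟩
    rw [RepMod.smul_def, hfix n hn]
    rfl

/-! ### `μ_p` -/

theorem Kx_val_injective : Function.Injective Kx.val := by
  intro x y h
  exact Additive.toMul.injective (Units.ext h)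

theorem Kx_val_nsmul (n : ℕ) (x : Kx) : (n • x).val = x.val ^ n := by
  induction n with
  | zero => simp [Kx.val_zero]
  | succ n ih => rw [succ_nsmul, Kx.val_add, ih, pow_succ]

theorem incl_nsmul {m : ℕ} (n : ℕ) (x : Mu m) : (muSub m).incl (n • x) = n • (muSub m).incl x :=
  map_nsmul _ _ _

theorem exists_generator_Mu (p : ℕ) [Fact p.Prime] :
    ∃ ζ : Mu p, ζ ≠ 0 ∧ (∀ x : Mu p, ∃ n : ℕ, x = n • ζ) ∧ p • ζ = 0 ∧
      ∀ g : GQ, g • ζ = ((cycloChar p g : (ZMod p)ˣ) : ZMod p).val • ζ := by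
  have hp : p.Prime := Fact.out
  have : NeZero p := ⟨hp.ne_zero⟩
  have : NeZero (p : Qb) := ⟨Nat.cast_ne_zero.mpr hp.ne_zero⟩
  obtain ⟨ζ₀, hζ₀⟩ := HasEnoughRootsOfUnity.exists_primitiveRoot Qb p
  have hu : ζ₀ ≠ 0 := hζ₀.ne_zero hp.ne_zero
  let u : Kx := Additive.ofMul (Units.mk0 ζ₀ hu)
  have huv : u.val = ζ₀ := rfl
  have hmem : u ∈ (muSub p).toAddSubgroup := by
    change p • u = 0
    apply Kx_val_injective
    rw [Kx_val_nsmul, huv, hζ₀.pow_eq_one, Kx.val_zero]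
  refine ⟨(muSub p).mkMod u hmem, ?_, ?_, ?_, ?_⟩
  · intro h
    have h1 := congrArg (fun z => ((muSub p).incl z).val) h
    simp only [GSub.incl_mkMod, map_zero] at h1
    rw [huv, Kx.val_zero] at h1
    exact hζ₀.ne_one hp.one_lt h1
  · intro x
    have hx : p • (muSub p).incl x = 0 := (muSub p).incl_mem x
    have hx' : ((muSub p).incl x).val ^ p = 1 := by
      rw [← Kx_val_nsmul, hx, Kx.val_zero]
    obtain ⟨i, -, hi⟩ := hζ₀.eq_pow_of_pow_eq_one hx'
    refine ⟨i, (muSub p).incl_injective (Kx_val_injective ?_)⟩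
    rw [incl_nsmul, GSub.incl_mkMod, Kx_val_nsmul, huv, hi]
  · apply (muSub p).incl_injective
    rw [incl_nsmul, GSub.incl_mkMod, map_zero]
    exact hmem
  · intro g
    apply (muSub p).incl_injective
    apply Kx_val_injective
    rw [GSub.incl_smul, incl_nsmul, GSub.incl_mkMod, Kx.val_smul, Kx_val_nsmul, huv]
    exact cycloChar_spec g ζ₀ hζ₀.pow_eq_one
/-! ### The dual module (G6) -/

theorem exists_dual_equiv {p : ℕ} [Fact p.Prime] (M : Rep (ZMod p) GQ) :
    ∃ E : (M.dualTwist (cycloChar p)) ≃+ HomMod (RepMod M) (Mu p),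
      ∀ (g : GQ) (f : M.dualTwist (cycloChar p)),
        E ((M.dualTwist (cycloChar p)).ρ g f) = g • E f := by
  obtain ⟨ζ, h0, hgen, hp, hχ⟩ := exists_generator_Mu p
  obtain ⟨E, hE⟩ := exists_dualTwist_equiv M ζ h0 hgen hp hχ
  exact ⟨E, fun g f => HomMod.ext fun m => hE g f m⟩

/-! ### The final statement of the block -/

theorem frozen_of_equivs {p : ℕ} [Fact p.Prime] (S : Finset Nat.Primes) (M : Rep (ZMod p) GQ)
    (X Y : Type) (hX : Finite X) (hcard : Nat.card X = Nat.card Y)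
    (e2 : Nonempty (↥(sha₂ S M) ≃ X))
    (e1 : Nonempty (↥(sha₁ S (M.dualTwist (cycloChar p))) ≃ Y)) :
    ∃ B : sha₁ S (M.dualTwist (cycloChar p)) →ₗ[ZMod p] sha₂ S M →ₗ[ZMod p] ZMod p,
      (∀ y, (∀ x, B y x = 0) → y = 0) ∧ (∀ x, (∀ y, B y x = 0) → x = 0) := by
  obtain ⟨e2⟩ := e2
  obtain ⟨e1⟩ := e1
  have h1 : Finite ↥(sha₂ S M) := Finite.of_equiv _ e2.symm
  have h2 : Nat.card ↥(sha₁ S (M.dualTwist (cycloChar p))) = Nat.card ↥(sha₂ S M) := by
    rw [Nat.card_congr e1, Nat.card_congr e2, hcard]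
  exact frozen_of_card S M h1 h2

set_option maxHeartbeats 2000000 in
theorem frozen_of_F1 {p : ℕ} [Fact p.Prime] (hp2 : p ≠ 2) (S : Finset Nat.Primes)
    (M : Rep (ZMod p) GQ) [FiniteDimensional (ZMod p) M]
    (hsm : ∀ m : M, ∃ F : IntermediateField ℚ Qb, FiniteDimensional ℚ F ∧
      ∀ s ∈ F.fixingSubgroup, M.ρ s m = m)
    (hMur : ∀ q : Nat.Primes, q ∉ S → ∀ A : ValuationSubring Qb,
      A.LiesOverPrime (q : ℕ) → ∀ g ∈ A.inertiaSubgroupIn ℚ, M.ρ g = 1)
    (hF1 : ∀ (N : Type) [AddCommGroup N] [DistribMulAction GQ N] [Finite N] [Smooth (lvlS S) N],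
      (∀ x : N, p • x = 0) →
        Finite (Sha S N 2) ∧ Nat.card (Sha S N 2) = Nat.card (Sha S (HomMod N (Mu p)) 1)) :
    ∃ B : sha₁ S (M.dualTwist (cycloChar p)) →ₗ[ZMod p] sha₂ S M →ₗ[ZMod p] ZMod p,
      (∀ y, (∀ x, B y x = 0) → y = 0) ∧ (∀ x, (∀ y, B y x = 0) → x = 0) := by
  have hfinM : Finite M := Module.finite_of_finite (ZMod p)
  have hsmooth : Smooth (lvlS S) (RepMod M) :=
    smooth_of_level S M (exists_level_of_rep S M hsm hMur)
  obtain ⟨hfin, hcard⟩ := hF1 (RepMod M) (RepMod.nsmul_eq_zero M)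
  obtain ⟨E, hE⟩ := exists_dual_equiv M
  have e2 : Nonempty (↥(sha₂ S M) ≃ ↥(Sha S (RepMod M) 2)) :=
    exists_sha₂_equiv hp2 S M (lvlS S) (cofinal_lvlS S) (fun q => lvlLoc q.1)
      (fun q => cofinal_lvlLoc q.1) (RepMod.of M) (RepMod.of_ρ M)
      (Aloc := fun q => ResMod (ιv q.1) (RepMod M)) (fun q => ResMod.toRes (ιv q.1))
      (fun q h a => (ResMod.smul_def (ιv q.1) h a).symm) (Sha S (RepMod M) 2)
      (fun z => mk_mem_Sha_iff z)
  have e1 : Nonempty (↥(sha₁ S (M.dualTwist (cycloChar p))) ≃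
      ↥(Sha S (HomMod (RepMod M) (Mu p)) 1)) :=
    exists_sha₁_equiv hp2 S (M.dualTwist (cycloChar p)) (lvlS S) (cofinal_lvlS S)
      (fun q => lvlLoc q.1) E hE
      (Aloc := fun q => ResMod (ιv q.1) (HomMod (RepMod M) (Mu p)))
      (fun q => ResMod.toRes (ιv q.1))
      (fun q h a => (ResMod.smul_def (ιv q.1) h a).symm) (Sha S (HomMod (RepMod M) (Mu p)) 1)
      (fun z => mk_mem_Sha_iff z)
  exact frozen_of_equivs S M _ _ hfin hcard e2 e1

end Fermat.Agent.S55.Bridge
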