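/-
S55 / block BRIDGE : `μ_p` is a coefficient module of order `p` (fields `coefMu`, `cardMu` of
`ArithInput`).
-/
import Fermat.Agent.S55.Bridge.Glue
import Fermat.Agent.S55.Formal.Contract

set_option autoImplicit false

open ExtCitation

namespace Fermat.Agent.S55.Bridge

theorem cardMu (p : ℕ) [Fact p.Prime] : Nat.card (Mu p) = p := by
  have hp : p.Prime := Fact.out
  obtain ⟨ζ, h0, hgen, hpζ, -⟩ := exists_generator_Mu p
  have hord : addOrderOf ζ = p := by
    have h1 : addOrderOf ζ ∣ p := addOrderOf_dvd_of_nsmul_eq_zero hpζ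
    rcases (Nat.dvd_prime hp).1 h1 with h | h
    · exact absurd (AddMonoid.addOrderOf_eq_one_iff.1 h) h0
    · exact h
  have htop : AddSubgroup.zmultiples ζ = ⊤ := by
    rw [eq_top_iff]
    intro x _
    obtain ⟨n, rfl⟩ := hgen x
    exact AddSubgroup.nsmul_mem_zmultiples ζ n
  have h2 : Nat.card (AddSubgroup.zmultiples ζ) = p := by rw [Nat.card_zmultiples, hord]
  rw [htop] at h2
  rw [← Nat.card_congr (AddSubgroup.topEquiv (G := Mu p)).toEquiv]
  exact h2

theorem coefMu {p : ℕ} [Fact p.Prime] (S : Finset Nat.Primes) (hpS : pPrime p ∈ S) :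
    IsCoef S p (Mu p) where
  finite := by
    have hp : p.Prime := Fact.out
    exact Nat.finite_of_card_ne_zero (by rw [cardMu p]; exact hp.ne_zero)
  ptors := by
    intro x
    obtain ⟨ζ, -, hgen, hpζ, -⟩ := exists_generator_Mu p
    obtain ⟨n, rfl⟩ := hgen x
    rw [smul_comm, hpζ, smul_zero]
  smooth := by
    have hp : p.Prime := Fact.out
    have : Fact (1 < p) := ⟨hp.one_lt⟩
    obtain ⟨ζ, -, hgen, -, hχ⟩ := exists_generator_Mu p
    obtain ⟨F, hF, hn, hfix⟩ := exists_level_of_cycloChar S hpS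
    refine ⟨fun a => ⟨_, ⟨F, hF, isStableField_of_normal F hn, rfl⟩, fun s hs => ?_⟩⟩
    obtain ⟨n, rfl⟩ := hgen a
    have h1 : s • ζ = ζ := by
      rw [hχ s, hfix s hs]
      simp [ZMod.val_one]
    rw [smul_comm, h1]

end Fermat.Agent.S55.Bridge
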