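import Mathlib
import Fermat.Prelude.Def_GaloisRep_CompletionBridge
import Fermat.Agent.S05.Inertia
import Fermat.Agent.Lib.Frobenius

/-!
# S55, block BRIDGE: the image of the local Galois group

The image of `Gal(ℚ̄_q/ℚ_q)` in `Gal(ℚ̄/ℚ)` is the decomposition group of `padicPlace q`.
-/

set_option autoImplicit false
set_option linter.style.haveILetI false

namespace Fermat.Agent.S55.Bridge

open scoped NNReal Pointwise Topology

local notation "Qbar" => AlgebraicClosure ℚ
local notation "GQ" => (AlgebraicClosure ℚ ≃ₐ[ℚ] AlgebraicClosure ℚ)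

variable (q : ℕ) [Fact q.Prime]

/-- The restriction map from the local Galois group to the global one is continuous. -/
theorem continuous_localGaloisToGlobal : Continuous (localGaloisToGlobal q) := by
  apply continuous_of_continuousAt_one _ (continuousAt_def.mpr _)
  intro N hN
  rw [map_one, krullTopology_mem_nhds_one_iff] at hN
  obtain ⟨L', hfin, hO⟩ := hN
  let b := Module.finBasis ℚ L'
  let E : IntermediateField ℚ_[q] (PadicAlgCl q) :=
    IntermediateField.adjoin ℚ_[q] (Set.range fun i => padicEmbedding q (b i : Qbar))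
  have : FiniteDimensional ℚ_[q] E :=
    IntermediateField.finiteDimensional_adjoin fun x _ => Algebra.IsIntegral.isIntegral x
  apply mem_nhds_iff.mpr
  refine ⟨E.fixingSubgroup, ?_, IntermediateField.fixingSubgroup_isOpen E, one_mem _⟩
  intro τ hτ
  apply hO
  simp only [SetLike.mem_coe, IntermediateField.mem_fixingSubgroup_iff] at hτ ⊢
  have hb : ∀ i, localGaloisToGlobal q τ (b i : Qbar) = (b i : Qbar) := by
    intro i
    apply (padicEmbedding q).toRingHom.injective
    show padicEmbedding q (localGaloisToGlobal q τ (b i : Qbar)) = padicEmbedding q (b i : Qbar)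
    rw [padicEmbedding_localGaloisToGlobal]
    exact hτ _ (IntermediateField.subset_adjoin _ _ ⟨i, rfl⟩)
  intro y hy
  have hsum := b.sum_repr ⟨y, hy⟩
  have hy' : y = ∑ i, (b.repr ⟨y, hy⟩ i) • (b i : Qbar) := by
    have h := congrArg (fun z : L' => (z : Qbar)) hsum
    simp only [IntermediateField.coe_sum, IntermediateField.coe_smul] at h
    exact h.symm
  rw [hy', map_sum]
  refine Finset.sum_congr rfl fun i _ => ?_
  rw [Algebra.smul_def, map_mul, AlgEquiv.commutes, hb]

/-- An element of the decomposition group preserves the `q`-adic norm. -/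
theorem norm_padicEmbedding_apply_of_mem {σ : GQ}
    (hσ : σ ∈ (padicPlace q).decompositionSubgroup ℚ) (x : Qbar) :
    ‖padicEmbedding q (σ x)‖ = ‖padicEmbedding q x‖ := by
  haveI : Algebra.IsAlgebraic ℚ Qbar := AlgebraicClosure.isAlgebraic ℚ
  by_cases hx : x = 0
  · simp [hx]
  have hσx : σ x ≠ 0 := by simpa using hx
  have h := Fermat.Agent.S05.decomposition_valuation_eq (padicPlace q) hσ x
  have h1 : σ x / x ∈ padicPlace q := by
    rw [← ValuationSubring.valuation_le_one_iff, map_div₀, h, div_self]
    exact (Valuation.ne_zero_iff _).2 hx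
  have h2 : x / σ x ∈ padicPlace q := by
    rw [← ValuationSubring.valuation_le_one_iff, map_div₀, h, div_self]
    exact (Valuation.ne_zero_iff _).2 hx
  rw [mem_padicPlace_iff, map_div₀, nnnorm_div] at h1 h2
  have hx' : ‖padicEmbedding q x‖₊ ≠ 0 := by
    simpa using hx
  have hσx' : ‖padicEmbedding q (σ x)‖₊ ≠ 0 := by
    simpa using hx
  have h1' : ‖padicEmbedding q (σ x)‖₊ ≤ ‖padicEmbedding q x‖₊ := by
    rwa [div_le_one₀ (pos_iff_ne_zero.2 hx')] at h1
  have h2' : ‖padicEmbedding q x‖₊ ≤ ‖padicEmbedding q (σ x)‖₊ := by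
    rwa [div_le_one₀ (pos_iff_ne_zero.2 hσx')] at h2
  exact congrArg NNReal.toReal (le_antisymm h1' h2')

/-- An element of the decomposition group fixes the algebraic numbers lying in `ℚ_q`. -/
theorem apply_eq_of_mem_decomposition {σ : GQ}
    (hσ : σ ∈ (padicPlace q).decompositionSubgroup ℚ) (x : Qbar)
    (hx : padicEmbedding q x ∈ Set.range (algebraMap ℚ_[q] (PadicAlgCl q))) : σ x = x := by
  obtain ⟨z, hz⟩ := hx
  apply (padicEmbedding q).toRingHom.injective
  show padicEmbedding q (σ x) = padicEmbedding q x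
  rw [← sub_eq_zero, ← norm_le_zero_iff]
  apply le_of_forall_pos_le_add
  intro ε hε
  obtain ⟨r, hr⟩ := Padic.rat_dense q z (half_pos hε)
  have h1 : ‖padicEmbedding q (x - (r : Qbar))‖ < ε / 2 := by
    have e : padicEmbedding q (x - (r : Qbar)) = algebraMap ℚ_[q] (PadicAlgCl q) (z - (r : ℚ_[q])) := by
      rw [map_sub, map_sub, hz, map_ratCast, map_ratCast]
    rw [e]
    have := PadicAlgCl.norm_extends q (z - (r : ℚ_[q]))
    rw [this]
    exact hr
  have h2 : ‖padicEmbedding q (σ (x - (r : Qbar)))‖ < ε / 2 := by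
    rw [norm_padicEmbedding_apply_of_mem q hσ]
    exact h1
  have e : padicEmbedding q (σ x) - padicEmbedding q x
      = padicEmbedding q (σ (x - (r : Qbar))) - padicEmbedding q (x - (r : Qbar)) := by
    rw [map_sub σ, map_ratCast σ, map_sub, map_sub]
    ring
  rw [e, zero_add]
  calc ‖padicEmbedding q (σ (x - (r : Qbar))) - padicEmbedding q (x - (r : Qbar))‖
      ≤ ‖padicEmbedding q (σ (x - (r : Qbar)))‖ + ‖padicEmbedding q (x - (r : Qbar))‖ :=
        norm_sub_le _ _
    _ ≤ ε / 2 + ε / 2 := add_le_add h2.le h1.le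
    _ = ε := add_halves ε

theorem range_localGaloisToGlobal :
    (localGaloisToGlobal q).range = (padicPlace q).decompositionSubgroup ℚ := by
  apply le_antisymm
  · rintro _ ⟨τ, rfl⟩
    exact localGaloisToGlobal_mem_decompositionSubgroup q τ
  · intro σ hσ
    haveI : IsGalois ℚ Qbar := Fermat.Agent.Lib.Frobenius.isGalois_rat
    haveI : IsGalois ℚ_[q] (PadicAlgCl q) := inferInstance
    have hclosed : IsClosed ((localGaloisToGlobal q).range : Set GQ) := by
      have : ((localGaloisToGlobal q).range : Set GQ) = Set.range (localGaloisToGlobal q) := rfl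
      rw [this]
      exact (isCompact_range (continuous_localGaloisToGlobal q)).isClosed
    have h1 := InfiniteGalois.fixingSubgroup_fixedField
      (⟨(localGaloisToGlobal q).range, hclosed⟩ : ClosedSubgroup GQ)
    have h2 : σ ∈ (IntermediateField.fixedField (localGaloisToGlobal q).range).fixingSubgroup := by
      rw [IntermediateField.mem_fixingSubgroup_iff]
      intro x hx
      apply apply_eq_of_mem_decomposition q hσ
      rw [InfiniteGalois.mem_range_algebraMap_iff_fixed]
      intro τ
      rw [← padicEmbedding_localGaloisToGlobal]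
      congr 1
      exact hx ⟨localGaloisToGlobal q τ, ⟨τ, rfl⟩⟩
    rw [h1] at h2
    exact h2

theorem padicPlace_liesOverPrime : (padicPlace q).LiesOverPrime q := by
  have hq0 : (q : Qbar) ≠ 0 := Nat.cast_ne_zero.2 (Fact.out : q.Prime).ne_zero
  show (q : Qbar) ∈ (padicPlace q).nonunits
  rw [ValuationSubring.mem_nonunits_iff]
  by_contra hcon
  rw [not_lt] at hcon
  have h1 : (q : Qbar)⁻¹ ∈ padicPlace q := by
    rw [← ValuationSubring.valuation_le_one_iff, map_inv₀]
    exact inv_le_one_of_one_le₀ hcon
  rw [mem_padicPlace_iff, map_inv₀, map_natCast, nnnorm_inv] at h1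
  have h2 : ‖(q : PadicAlgCl q)‖₊ = 1 / (q : ℝ≥0) := PadicAlgCl.valuation_p q
  rw [h2, one_div, inv_inv] at h1
  have h3 : (1 : ℝ≥0) < (q : ℝ≥0) := by exact_mod_cast (Fact.out : q.Prime).one_lt
  exact absurd h1 (not_le.2 h3)

end Fermat.Agent.S55.Bridge
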