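import Mathlib
import Fermat.Prelude.Def_GroupCohomology_ContinuousUnramified

/-!
# S55, block BRIDGE: the archimedean place

All cochains on the archimedean decomposition group are level constant, and its cohomology with
coefficients in an `𝔽_p`-module vanishes for odd `p`.
-/

set_option autoImplicit false

namespace Fermat.Agent.S55.Bridge

open CategoryTheory groupCohomology ExtCitation

local notation "Qbar" => AlgebraicClosure ℚ
local notation "GQ" => (AlgebraicClosure ℚ ≃ₐ[ℚ] AlgebraicClosure ℚ)

/-- There is a number field whose fixing subgroup meets the archimedean decomposition group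
trivially. -/
theorem exists_field_arch : ∃ F : IntermediateField ℚ Qbar, FiniteDimensional ℚ F ∧
    ∀ s : archimedeanDecomposition, archimedeanLoc s ∈ F.fixingSubgroup → s = 1 := by
  have hmem : ∀ s : archimedeanDecomposition, s = 1 ∨ (s : GQ) = complexConjugation := by
    rintro ⟨s, hs⟩
    obtain ⟨k, rfl⟩ := Subgroup.mem_zpowers_iff.1 hs
    rcases Int.even_or_odd' k with ⟨m, rfl | rfl⟩
    · left
      apply Subtype.ext
      show complexConjugation ^ (2 * m) = 1
      rw [zpow_mul, zpow_ofNat, complexConjugation_sq, one_zpow]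
    · right
      show complexConjugation ^ (2 * m + 1) = complexConjugation
      rw [zpow_add, zpow_mul, zpow_ofNat, complexConjugation_sq, one_zpow, one_mul, zpow_one]
  by_cases hc : complexConjugation = 1
  · refine ⟨⊥, inferInstance, fun s _ => ?_⟩
    rcases hmem s with h | h
    · exact h
    · exact Subtype.ext (h.trans hc)
  · have : ∃ x : Qbar, complexConjugation x ≠ x := by
      by_contra hcon
      exact hc (AlgEquiv.ext fun y => by
        by_contra hy
        exact hcon ⟨y, hy⟩)
    obtain ⟨x, hx⟩ := this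
    refine ⟨IntermediateField.adjoin ℚ {x},
      IntermediateField.adjoin.finiteDimensional
        ((AlgebraicClosure.isAlgebraic ℚ).isAlgebraic x).isIntegral, fun s hs => ?_⟩
    rcases hmem s with h | h
    · exact h
    · exfalso
      apply hx
      rw [IntermediateField.mem_fixingSubgroup_iff] at hs
      have := hs x (IntermediateField.mem_adjoin_simple_self ℚ x)
      rw [← h]
      exact this

theorem isLevelConstant₁_arch {X : Type*} (f : archimedeanDecomposition → X) :
    IsLevelConstant₁ archimedeanLoc f := by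
  obtain ⟨F, hF, h⟩ := exists_field_arch
  refine ⟨F, hF, fun g s hs => ?_⟩
  rw [h s hs, mul_one]

theorem isLevelConstant₂_arch {X : Type*}
    (f : archimedeanDecomposition × archimedeanDecomposition → X) :
    IsLevelConstant₂ archimedeanLoc f := by
  obtain ⟨F, hF, h⟩ := exists_field_arch
  refine ⟨F, hF, fun g g' s s' hs hs' => ?_⟩
  rw [h s hs, h s' hs', mul_one, mul_one]

section Finite

variable {k G : Type} [CommRing k] [Group G] [Fintype G]

/-- A `2`-cocycle of a finite group whose order is invertible is a coboundary. -/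
theorem exists_d₁₂_eq_of_isUnit (A : Rep k G) (hG : IsUnit (Fintype.card G : k))
    (f : G × G → A) (hf : f ∈ cocycles₂ A) : ∃ x : G → A, (d₁₂ A).hom x = f := by
  obtain ⟨u, hu⟩ := hG
  rw [mem_cocycles₂_iff] at hf
  let X : G → A := fun g => ∑ j, f (g, j)
  have key : ∀ g h : G, (Fintype.card G : k) • f (g, h) = A.ρ g (X h) - X (g * h) + X g := by
    intro g h
    have h1 : ∑ j, (f (g * h, j) + f (g, h)) = ∑ j, (A.ρ g (f (h, j)) + f (g, h * j)) :=
      Finset.sum_congr rfl fun j _ => hf g h j
    rw [Finset.sum_add_distrib, Finset.sum_add_distrib, Finset.sum_const, Finset.card_univ,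
      ← map_sum] at h1
    have h2 : ∑ j, f (g, h * j) = X g :=
      Fintype.sum_equiv (Equiv.mulLeft h) _ _ fun j => rfl
    rw [h2] at h1
    have h3 : (Fintype.card G : k) • f (g, h) = Fintype.card G • f (g, h) :=
      Nat.cast_smul_eq_nsmul k _ _
    rw [h3]
    have h4 : X (g * h) + Fintype.card G • f (g, h) = A.ρ g (X h) + X g := h1
    rw [eq_sub_of_add_eq' h4]
    abel
  refine ⟨fun g => (↑u⁻¹ : k) • X g, ?_⟩
  ext ⟨g, h⟩
  rw [d₁₂_hom_apply]
  show A.ρ g ((↑u⁻¹ : k) • X h) - (↑u⁻¹ : k) • X (g * h) + (↑u⁻¹ : k) • X g = f (g, h)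
  rw [map_smul, ← smul_sub, ← smul_add, ← key, smul_smul, ← hu, Units.inv_mul, one_smul]

/-- A `1`-cocycle of a finite group whose order is invertible is a coboundary. -/
theorem exists_d₀₁_eq_of_isUnit (A : Rep k G) (hG : IsUnit (Fintype.card G : k))
    (f : G → A) (hf : f ∈ cocycles₁ A) : ∃ x : A, (d₀₁ A).hom x = f := by
  obtain ⟨u, hu⟩ := hG
  rw [mem_cocycles₁_iff] at hf
  let X : A := ∑ j, f j
  have key : ∀ g : G, (Fintype.card G : k) • f g = X - A.ρ g X := by
    intro g
    have h1 : ∑ j, f (g * j) = ∑ j, (A.ρ g (f j) + f g) :=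
      Finset.sum_congr rfl fun j _ => hf g j
    rw [Finset.sum_add_distrib, Finset.sum_const, Finset.card_univ, ← map_sum] at h1
    have h2 : ∑ j, f (g * j) = X :=
      Fintype.sum_equiv (Equiv.mulLeft g) _ _ fun j => rfl
    rw [h2] at h1
    have h3 : (Fintype.card G : k) • f g = Fintype.card G • f g :=
      Nat.cast_smul_eq_nsmul k _ _
    rw [h3]
    have h4 : X = A.ρ g X + Fintype.card G • f g := h1
    exact (sub_eq_of_eq_add' h4).symm
  refine ⟨-((↑u⁻¹ : k) • X), ?_⟩
  ext g
  rw [d₀₁_hom_apply]
  rw [map_neg, map_smul, neg_sub_neg, ← smul_sub, ← key, smul_smul, ← hu, Units.inv_mul, one_smul]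

end Finite

section Arch

theorem orderOf_complexConjugation_dvd : orderOf complexConjugation ∣ 2 :=
  orderOf_dvd_of_pow_eq_one complexConjugation_sq

instance finite_arch : Finite archimedeanDecomposition := by
  have h : IsOfFinOrder complexConjugation :=
    isOfFinOrder_iff_pow_eq_one.2 ⟨2, by norm_num, complexConjugation_sq⟩
  exact (finite_zpowers.2 h).to_subtype

noncomputable instance fintype_arch : Fintype archimedeanDecomposition := Fintype.ofFinite _

variable {p : ℕ} [Fact p.Prime]

theorem isUnit_card_arch (hp2 : p ≠ 2) :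
    IsUnit (Fintype.card archimedeanDecomposition : ZMod p) := by
  have h1 : Fintype.card archimedeanDecomposition = orderOf complexConjugation := by
    rw [← Nat.card_eq_fintype_card]
    exact Nat.card_zpowers complexConjugation
  rw [h1]
  have h2 : Nat.Coprime (orderOf complexConjugation) p := by
    apply Nat.Coprime.coprime_dvd_left orderOf_complexConjugation_dvd
    rw [Nat.coprime_primes Nat.prime_two Fact.out]
    exact fun h => hp2 h.symm
  exact (ZMod.isUnit_iff_coprime _ _).2 h2

/-- The continuous `H²` of the archimedean decomposition group vanishes for odd `p`. -/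
theorem subsingleton_continuousH2_arch (hp2 : p ≠ 2) (M : Rep (ZMod p) GQ) :
    Subsingleton (continuousH2 archimedeanLoc (Rep.res archimedeanLoc M)) := by
  refine ⟨fun a b => ?_⟩
  have hz : ∀ a : continuousH2 archimedeanLoc (Rep.res archimedeanLoc M), a = 0 := by
    intro a
    obtain ⟨c, rfl⟩ := Submodule.Quotient.mk_surjective _ a
    have := (continuousH2π_eq_zero_iff archimedeanLoc (Rep.res archimedeanLoc M) c).2 (by
      obtain ⟨x, hx⟩ := exists_d₁₂_eq_of_isUnit (Rep.res archimedeanLoc M)
        (isUnit_card_arch hp2) c.1 c.2.1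
      exact (mem_levelCoboundaries₂_iff _ _ _).2 ⟨x, isLevelConstant₁_arch x, hx⟩)
    exact this
  rw [hz a, hz b]

/-- The `H¹` of the archimedean decomposition group vanishes for odd `p`. -/
theorem subsingleton_H1_arch (hp2 : p ≠ 2) (M : Rep (ZMod p) GQ) :
    Subsingleton (H1 (Rep.res archimedeanLoc M)) := by
  refine ⟨fun a b => ?_⟩
  have hz : ∀ a : H1 (Rep.res archimedeanLoc M), a = 0 := by
    intro a
    induction a using H1_induction_on with
    | h c =>
      rw [H1π_eq_zero_iff]
      obtain ⟨x, hx⟩ := exists_d₀₁_eq_of_isUnit (Rep.res archimedeanLoc M)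
        (isUnit_card_arch hp2) c.1 c.2
      exact ⟨x, hx⟩
  rw [hz a, hz b]

/-- The archimedean component of the localisation map on `H²` vanishes. -/
theorem locTotal₂S_inl (hp2 : p ≠ 2) (S : Finset Nat.Primes) (M : Rep (ZMod p) GQ)
    (x : continuousH2S S M) (u : Unit) : locTotal₂S S M x (Sum.inl u) = 0 :=
  (subsingleton_continuousH2_arch hp2 M).elim _ _

/-- The archimedean component of the localisation map on `H¹` vanishes. -/
theorem locTotal_inl (hp2 : p ≠ 2) (S : Finset Nat.Primes) (M : Rep (ZMod p) GQ)
    (x : H1 M) (u : Unit) : locTotal (extArithLoc S) M x (Sum.inl u) = 0 :=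
  (subsingleton_H1_arch hp2 M).elim _ _

/-- Skeleton form of the vanishing of the archimedean `H²`. -/
theorem arch_H2 (hp2 : p ≠ 2) (M : Rep (ZMod p) GQ) (z : GQ × GQ → M) (hz : z ∈ cocycles₂ M) :
    (fun g : archimedeanDecomposition × archimedeanDecomposition =>
        (z (archimedeanLoc g.1, archimedeanLoc g.2) : M)) ∈
      levelCoboundaries₂ archimedeanLoc (Rep.res archimedeanLoc M) := by
  rw [mem_cocycles₂_iff] at hz
  obtain ⟨x, hx⟩ := exists_d₁₂_eq_of_isUnit (Rep.res archimedeanLoc M) (isUnit_card_arch hp2)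
    (fun g : archimedeanDecomposition × archimedeanDecomposition =>
        (z (archimedeanLoc g.1, archimedeanLoc g.2) : M))
    ((mem_cocycles₂_iff _).2 fun g h j => hz (archimedeanLoc g) (archimedeanLoc h)
      (archimedeanLoc j))
  exact (mem_levelCoboundaries₂_iff _ _ _).2 ⟨x, isLevelConstant₁_arch x, hx⟩

/-- Skeleton form of the vanishing of the archimedean `H¹`. -/
theorem arch_H1 (hp2 : p ≠ 2) (M : Rep (ZMod p) GQ) (c : cocycles₁ M) :
    ∃ m : M, ∀ h : archimedeanDecomposition,
      c.1 (archimedeanLoc h) = M.ρ (archimedeanLoc h) m - m := by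
  have hc := (mem_cocycles₁_iff _).1 c.2
  obtain ⟨x, hx⟩ := exists_d₀₁_eq_of_isUnit (Rep.res archimedeanLoc M) (isUnit_card_arch hp2)
    (fun g : archimedeanDecomposition => (c.1 (archimedeanLoc g) : M))
    ((mem_cocycles₁_iff _).2 fun g h => hc (archimedeanLoc g) (archimedeanLoc h))
  refine ⟨x, fun h => ?_⟩
  have := congrFun hx h
  rw [d₀₁_hom_apply] at this
  exact this.symm

end Arch

end Fermat.Agent.S55.Bridge
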