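/-
S55 / block BRIDGE : the differential `dd` of `Coh/Defs.lean` in degrees 0, 1, 2 is Mathlib's
`d₀₁`, `d₁₂`, `d₂₃`.
-/
import Fermat.Agent.S55.Bridge.Basic

set_option autoImplicit false

open groupCohomology CategoryTheory

namespace Fermat.Agent.S55.Bridge

section Diff

variable {G : Type} [Group G] {k : Type} [CommRing k] (M : Rep k G)
  {A : Type} [AddCommGroup A] [DistribMulAction G A]
  (e : M →+ A) (he : ∀ g m, e (M.ρ g m) = g • e m)

include he

theorem dd_c0 (m : M) : dd A 0 (c0 e m) = c1 e ((d₀₁ M).hom m) := by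
  funext g
  simp [dd_apply, d₀₁_hom_apply, he, sub_eq_add_neg]

theorem dd_c1 (f : G → M) : dd A 1 (c1 e f) = c2 e ((d₁₂ M).hom f) := by
  funext g
  simp [dd_apply, Fin.sum_univ_succ, Fin.contractNth, d₁₂_hom_apply, he, map_add, map_sub]
  abel

theorem dd_c2 (f : G × G → M) : dd A 2 (c2 e f) = c3 e ((d₂₃ M).hom f) := by
  funext g
  simp [dd_apply, Fin.sum_univ_succ, Fin.contractNth, d₂₃_hom_apply, he, map_add, map_sub]
  abel

end Diff

end Fermat.Agent.S55.Bridge
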