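/-
S55 / block BRIDGE : section H1 (general comparison in degree 1).

The submodule of `H1 M` of classes having a level-constant representative (the shape of the
Prelude's `continuousH1`, `continuousH1S`) is identified with the smooth cohomology
`Hsm 𝓝 A 1` of `Coh/Defs.lean`.
-/
import Fermat.Agent.S55.Bridge.Basic
import Fermat.Agent.S55.Bridge.Diff
import Fermat.Agent.S55.Bridge.Levels

set_option autoImplicit false

open groupCohomology CategoryTheory ExtCitation
open scoped Pointwise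

namespace Fermat.Agent.S55.Bridge

local notation "Qb" => AlgebraicClosure ℚ
local notation "GQ" => (AlgebraicClosure ℚ ≃ₐ[ℚ] AlgebraicClosure ℚ)

/-! ## Section H1 : general comparison in degree 1 -/
section H1

variable {G : Type} [Group G] {k : Type} [CommRing k] (M : Rep k G)
  {A : Type} [AddCommGroup A] [DistribMulAction G A]
  (e : M ≃+ A) (he : ∀ g m, e (M.ρ g m) = g • e m) (𝓝 : LevelSys G)
  (C1 : Submodule k (G → M))
  (h1 : ∀ f, f ∈ C1 ↔ IsLevel 𝓝 (fun g : Fin 1 → G => f (g 0)))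

namespace H1aux

omit [DistribMulAction G A] in
theorem isLevel_comp_iff {n : ℕ} (f : (Fin n → G) → M) :
    IsLevel 𝓝 (fun g => e (f g)) ↔ IsLevel 𝓝 f := by
  constructor
  · rintro ⟨N, hN, h⟩
    exact ⟨N, hN, fun g g' hg => e.injective (h g g' hg)⟩
  · rintro ⟨N, hN, h⟩
    exact ⟨N, hN, fun g g' hg => congrArg e (h g g' hg)⟩

omit [DistribMulAction G A] in
theorem c2_eq_zero_iff (w : G × G → M) : c2 (e : M →+ A) w = 0 ↔ w = 0 := by
  constructor
  · intro h
    funext ⟨a, b⟩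
    have := congrFun h ![a, b]
    simpa using this
  · rintro rfl
    funext g
    simp

omit [DistribMulAction G A] in
theorem c1_injective : Function.Injective (c1 (G := G) (e : M →+ A)) := by
  intro z z' h
  funext a
  have := congrFun h ![a]
  simpa using this

omit [DistribMulAction G A] in
/-- every cochain `(Fin 0 → G) → A` is a `c0` -/
theorem exists_eq_c0 (y : (Fin 0 → G) → A) : ∃ m : M, c0 (e : M →+ A) m = y := by
  refine ⟨e.symm (y ![]), ?_⟩
  funext g
  have : (![] : Fin 0 → G) = g := Subsingleton.elim _ _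
  simp [this]

omit [DistribMulAction G A] in
/-- every cochain `(Fin 1 → G) → A` is a `c1` -/
theorem exists_eq_c1 (y : (Fin 1 → G) → A) : ∃ f : G → M, c1 (e : M →+ A) f = y := by
  refine ⟨fun g => e.symm (y ![g]), ?_⟩
  funext g
  have : (![g 0] : Fin 1 → G) = g := by
    funext i
    rw [Subsingleton.elim i 0]
    rfl
  simp [this]

omit [DistribMulAction G A] in
theorem c1_add (z z' : G → M) :
    c1 (e : M →+ A) (z + z') = c1 (e : M →+ A) z + c1 (e : M →+ A) z' := by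
  funext g
  simp

end H1aux

include he h1 in
theorem c1_mem_Zsm_iff (c : G → M) :
    c1 (e : M →+ A) c ∈ Zsm 𝓝 A 1 ↔ c ∈ cocycles₁ M ∧ c ∈ C1 := by
  have hC : c1 (e : M →+ A) c ∈ Csm 𝓝 A 1 ↔ c ∈ C1 := by
    rw [h1]
    exact H1aux.isLevel_comp_iff M e 𝓝 (fun g : Fin 1 → G => c (g 0))
  have hK : c1 (e : M →+ A) c ∈ (dd A 1).ker ↔ c ∈ cocycles₁ M := by
    rw [AddMonoidHom.mem_ker, dd_c1 M (e : M →+ A) he, H1aux.c2_eq_zero_iff]
    exact Iff.rfl
  rw [Zsm, AddSubgroup.mem_inf, hC, hK, and_comm]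

include he in
theorem c1_mem_Bsm_iff (c : G → M) :
    c1 (e : M →+ A) c ∈ Bsm 𝓝 A 1 ↔ ∃ m : M, ∀ g, c g = M.ρ g m - m := by
  change c1 (e : M →+ A) c ∈ (Csm 𝓝 A 0).map (dd A 0) ↔ _
  rw [AddSubgroup.mem_map]
  constructor
  · rintro ⟨y, -, hy⟩
    obtain ⟨m, rfl⟩ := H1aux.exists_eq_c0 M e y
    rw [dd_c0 M (e : M →+ A) he] at hy
    have := H1aux.c1_injective M e hy
    refine ⟨m, fun g => ?_⟩
    rw [← this, d₀₁_hom_apply]
  · rintro ⟨m, hm⟩
    refine ⟨c0 (e : M →+ A) m, isLevel_zero 𝓝 _, ?_⟩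
    rw [dd_c0 M (e : M →+ A) he]
    congr 1
    funext g
    rw [hm, d₀₁_hom_apply]

theorem H1π_eq_zero_iff' (c : cocycles₁ M) :
    (H1π M).hom c = 0 ↔ ∃ m : M, ∀ g, c.1 g = M.ρ g m - m := by
  rw [H1π_eq_zero_iff]
  constructor
  · rintro ⟨m, hm⟩
    refine ⟨m, fun g => ?_⟩
    have := congrFun hm g
    rw [d₀₁_hom_apply] at this
    exact this.symm
  · rintro ⟨m, hm⟩
    refine ⟨m, ?_⟩
    funext g
    rw [d₀₁_hom_apply]
    exact (hm g).symm

include he h1 in
/-- THE comparison in degree 1.  `continuousH1S S M` and `continuousH1 r M` are definitionally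
of the form of the left hand side. -/
theorem exists_h1Equiv :
    ∃ E : ↥((C1.comap (cocycles₁ M).subtype).map (H1π M).hom) ≃+ Hsm 𝓝 A 1,
      ∀ (c : cocycles₁ M) (hc : (H1π M).hom c ∈ (C1.comap (cocycles₁ M).subtype).map (H1π M).hom)
        (hz : c1 (e : M →+ A) c.1 ∈ Zsm 𝓝 A 1),
        E ⟨(H1π M).hom c, hc⟩ = Hsm.mk 𝓝 A 1 ⟨c1 (e : M →+ A) c.1, hz⟩ := by
  have hZ := c1_mem_Zsm_iff M e he 𝓝 C1 h1
  have hB := c1_mem_Bsm_iff M e he 𝓝
  -- the map from level-constant cocycles to smooth cohomology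
  let φ : ↥(C1.comap (cocycles₁ M).subtype) →+ Hsm 𝓝 A 1 :=
    { toFun := fun c => Hsm.mk 𝓝 A 1 ⟨c1 (e : M →+ A) c.1.1, (hZ c.1.1).2 ⟨c.1.2, c.2⟩⟩
      map_zero' := by
        rw [← map_zero (Hsm.mk 𝓝 A 1)]
        congr 1
        apply Subtype.ext
        funext g
        exact map_zero (e : M →+ A)
      map_add' := by
        intro z z'
        rw [← map_add (Hsm.mk 𝓝 A 1)]
        congr 1
        apply Subtype.ext
        exact H1aux.c1_add M e z.1.1 z'.1.1 }
  -- the map from level-constant cocycles to the submodule of `H1 M`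
  let π : ↥(C1.comap (cocycles₁ M).subtype) →+
      ↥((C1.comap (cocycles₁ M).subtype).map (H1π M).hom) :=
    { toFun := fun c => ⟨(H1π M).hom c.1, Submodule.mem_map_of_mem c.2⟩
      map_zero' := by
        apply Subtype.ext
        simp
      map_add' := by
        intro z z'
        apply Subtype.ext
        simp }
  have hφ0 : ∀ c : ↥(C1.comap (cocycles₁ M).subtype), φ c = 0 ↔
      ∃ m : M, ∀ g, c.1.1 g = M.ρ g m - m := by
    intro c
    change Hsm.mk 𝓝 A 1 ⟨c1 (e : M →+ A) c.1.1, (hZ c.1.1).2 ⟨c.1.2, c.2⟩⟩ = 0 ↔ _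
    rw [← hB]
    exact (QuotientAddGroup.eq_zero_iff (N := (Bsm 𝓝 A 1).addSubgroupOf (Zsm 𝓝 A 1))
      (⟨c1 (e : M →+ A) c.1.1, (hZ c.1.1).2 ⟨c.1.2, c.2⟩⟩ : ↥(Zsm 𝓝 A 1))).trans
        AddSubgroup.mem_addSubgroupOf
  have hπ0 : ∀ c : ↥(C1.comap (cocycles₁ M).subtype), π c = 0 ↔
      ∃ m : M, ∀ g, c.1.1 g = M.ρ g m - m := by
    intro c
    rw [← H1π_eq_zero_iff' M c.1]
    exact Subtype.ext_iff
  have hker : π.ker = φ.ker := by
    ext c
    rw [AddMonoidHom.mem_ker, AddMonoidHom.mem_ker, hφ0, hπ0]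
  have hφs : Function.Surjective φ := by
    intro y
    obtain ⟨⟨y, hy⟩, rfl⟩ := QuotientAddGroup.mk'_surjective _ y
    obtain ⟨c, rfl⟩ := H1aux.exists_eq_c1 M e y
    exact ⟨⟨⟨c, ((hZ c).1 hy).1⟩, ((hZ c).1 hy).2⟩, rfl⟩
  have hπs : Function.Surjective π := by
    rintro ⟨y, hy⟩
    obtain ⟨c, hc, rfl⟩ := Submodule.mem_map.1 hy
    exact ⟨⟨c, hc⟩, rfl⟩
  refine ⟨(QuotientAddGroup.quotientKerEquivOfSurjective π hπs).symm.trans
    ((QuotientAddGroup.quotientAddEquivOfEq hker).trans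
      (QuotientAddGroup.quotientKerEquivOfSurjective φ hφs)), fun c hc hz => ?_⟩
  have hx : (QuotientAddGroup.quotientKerEquivOfSurjective π hπs).symm ⟨(H1π M).hom c, hc⟩ =
      QuotientAddGroup.mk (⟨c, ((hZ c.1).1 hz).2⟩ : ↥(C1.comap (cocycles₁ M).subtype)) := by
    rw [AddEquiv.symm_apply_eq]
    rfl
  rw [AddEquiv.trans_apply, hx]
  rfl

end H1

end Fermat.Agent.S55.Bridge
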