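/-
S55 / block BRIDGE : section H2 (general comparison in degree 2).

`continuousH2`-shaped quotients `(Z² ⊓ C2) / (d C1)` of the Prelude are identified with the smooth
cohomology `Hsm 𝓝 A 2` of `Coh/Defs.lean`.
-/
import Fermat.Agent.S55.Bridge.Basic

set_option autoImplicit false

open groupCohomology CategoryTheory ExtCitation
open scoped Pointwise

namespace Fermat.Agent.S55.Bridge

local notation "Qb" => AlgebraicClosure ℚ
local notation "GQ" => (AlgebraicClosure ℚ ≃ₐ[ℚ] AlgebraicClosure ℚ)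

/-! ### private copies of the two differential formulas -/
section DiffPriv

variable {G : Type} [Group G] {k : Type} [CommRing k] (M : Rep k G)
  {A : Type} [AddCommGroup A] [DistribMulAction G A]
  (e : M →+ A) (he : ∀ g m, e (M.ρ g m) = g • e m)

include he

private theorem dd_c1_aux (f : G → M) : dd A 1 (c1 e f) = c2 e ((d₁₂ M).hom f) := by
  funext g
  rw [dd_apply, Fin.sum_univ_two]
  simp only [c1_apply, c2_apply, d₁₂_hom_apply, map_add, map_sub, he]
  simp [Fin.contractNth, sub_eq_add_neg, add_assoc]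

private theorem dd_c2_aux (f : G × G → M) : dd A 2 (c2 e f) = c3 e ((d₂₃ M).hom f) := by
  funext g
  rw [dd_apply, Fin.sum_univ_three]
  simp only [c2_apply, c3_apply, d₂₃_hom_apply, map_add, map_sub, he]
  simp [Fin.contractNth, sub_eq_add_neg, add_assoc, pow_succ]

end DiffPriv

/-! ## Section H2 : general comparison in degree 2 -/
section H2

variable {G : Type} [Group G] {k : Type} [CommRing k] (M : Rep k G)
  {A : Type} [AddCommGroup A] [DistribMulAction G A]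
  (e : M ≃+ A) (he : ∀ g m, e (M.ρ g m) = g • e m) (𝓝 : LevelSys G)
  (C1 : Submodule k (G → M)) (C2 : Submodule k (G × G → M))
  (h1 : ∀ f, f ∈ C1 ↔ IsLevel 𝓝 (fun g : Fin 1 → G => f (g 0)))
  (h2 : ∀ f, f ∈ C2 ↔ IsLevel 𝓝 (fun g : Fin 2 → G => f (g 0, g 1)))

omit [DistribMulAction G A] in
private theorem isLevel_comp_iff {n : ℕ} (f : (Fin n → G) → M) :
    IsLevel 𝓝 (fun g => e (f g)) ↔ IsLevel 𝓝 f := by
  constructor
  · rintro ⟨N, hN, h⟩
    exact ⟨N, hN, fun g g' hg => e.injective (h g g' hg)⟩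
  · rintro ⟨N, hN, h⟩
    exact ⟨N, hN, fun g g' hg => congrArg e (h g g' hg)⟩

omit [DistribMulAction G A] in
private theorem c3_eq_zero_iff (w : G × G × G → M) : c3 (e : M →+ A) w = 0 ↔ w = 0 := by
  constructor
  · intro h
    funext ⟨a, b, c⟩
    have := congrFun h ![a, b, c]
    simpa using this
  · rintro rfl
    funext g
    simp

omit [DistribMulAction G A] in
private theorem c2_injective : Function.Injective (c2 (G := G) (e : M →+ A)) := by
  intro z z' h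
  funext ⟨a, b⟩
  have := congrFun h ![a, b]
  simpa using this

include he h2 in
theorem c2_mem_Zsm_iff (z : G × G → M) :
    c2 (e : M →+ A) z ∈ Zsm 𝓝 A 2 ↔ z ∈ cocycles₂ M ⊓ C2 := by
  have hC : c2 (e : M →+ A) z ∈ Csm 𝓝 A 2 ↔ z ∈ C2 := by
    rw [h2]
    exact isLevel_comp_iff M e 𝓝 (fun g : Fin 2 → G => z (g 0, g 1))
  have hK : c2 (e : M →+ A) z ∈ (dd A 2).ker ↔ z ∈ cocycles₂ M := by
    rw [AddMonoidHom.mem_ker, dd_c2_aux M (e : M →+ A) he, c3_eq_zero_iff]
    exact Iff.rfl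
  rw [Zsm, AddSubgroup.mem_inf, Submodule.mem_inf, hC, hK, and_comm]

omit [DistribMulAction G A] in
/-- every cochain `(Fin 1 → G) → A` is a `c1` -/
private theorem exists_eq_c1 (y : (Fin 1 → G) → A) : ∃ f : G → M, c1 (e : M →+ A) f = y := by
  refine ⟨fun g => e.symm (y ![g]), ?_⟩
  funext g
  have : (![g 0] : Fin 1 → G) = g := by
    funext i
    rw [Subsingleton.elim i 0]
    rfl
  simp [this]

include he h1 in
theorem c2_mem_Bsm_iff (z : G × G → M) :
    c2 (e : M →+ A) z ∈ Bsm 𝓝 A 2 ↔ z ∈ C1.map (d₁₂ M).hom := by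
  have hC : ∀ f : G → M, c1 (e : M →+ A) f ∈ Csm 𝓝 A 1 ↔ f ∈ C1 := by
    intro f
    rw [h1]
    exact isLevel_comp_iff M e 𝓝 (fun g : Fin 1 → G => f (g 0))
  change c2 (e : M →+ A) z ∈ (Csm 𝓝 A 1).map (dd A 1) ↔ _
  rw [AddSubgroup.mem_map, Submodule.mem_map]
  constructor
  · rintro ⟨y, hy, hyz⟩
    obtain ⟨f, rfl⟩ := exists_eq_c1 M e y
    refine ⟨f, (hC f).1 hy, ?_⟩
    rw [dd_c1_aux M (e : M →+ A) he] at hyz
    exact c2_injective M e hyz
  · rintro ⟨f, hf, rfl⟩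
    exact ⟨c1 (e : M →+ A) f, (hC f).2 hf, dd_c1_aux M (e : M →+ A) he f⟩

omit [DistribMulAction G A] in
/-- every cochain `(Fin 2 → G) → A` is a `c2` -/
theorem exists_eq_c2 (y : (Fin 2 → G) → A) : ∃ z : G × G → M, c2 (e : M →+ A) z = y := by
  refine ⟨fun g => e.symm (y ![g.1, g.2]), ?_⟩
  funext g
  have : (![g 0, g 1] : Fin 2 → G) = g := by
    funext i
    fin_cases i <;> rfl
  simp [this]

omit [DistribMulAction G A] in
private theorem c2_add (z z' : G × G → M) :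
    c2 (e : M →+ A) (z + z') = c2 (e : M →+ A) z + c2 (e : M →+ A) z' := by
  funext g
  simp

include he h1 h2 in
/-- THE comparison in degree 2.  Both `continuousH2 r M` and `continuousH2S S M` are
definitionally of the form of the left hand side. -/
theorem exists_h2Equiv :
    ∃ E : (↥(cocycles₂ M ⊓ C2) ⧸ (C1.map (d₁₂ M).hom).comap (cocycles₂ M ⊓ C2).subtype) ≃+
        Hsm 𝓝 A 2,
      ∀ (z : ↥(cocycles₂ M ⊓ C2)) (hz : c2 (e : M →+ A) z.1 ∈ Zsm 𝓝 A 2),
        E (Submodule.Quotient.mk z) = Hsm.mk 𝓝 A 2 ⟨c2 (e : M →+ A) z.1, hz⟩ := by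
  have hZ := c2_mem_Zsm_iff M e he 𝓝 C2 h2
  have hB := c2_mem_Bsm_iff M e he 𝓝 C1 h1
  -- the map on cocycles
  let φ : ↥(cocycles₂ M ⊓ C2) →+ Hsm 𝓝 A 2 :=
    { toFun := fun z => Hsm.mk 𝓝 A 2 ⟨c2 (e : M →+ A) z.1, (hZ z.1).2 z.2⟩
      map_zero' := by
        rw [← map_zero (Hsm.mk 𝓝 A 2)]
        congr 1
        apply Subtype.ext
        funext g
        simp
      map_add' := by
        intro z z'
        rw [← map_add (Hsm.mk 𝓝 A 2)]
        congr 1
        apply Subtype.ext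
        exact c2_add M e z.1 z'.1 }
  have hφ0 : ∀ z : ↥(cocycles₂ M ⊓ C2), φ z = 0 ↔
      z ∈ (C1.map (d₁₂ M).hom).comap (cocycles₂ M ⊓ C2).subtype := by
    intro z
    change Hsm.mk 𝓝 A 2 ⟨c2 (e : M →+ A) z.1, (hZ z.1).2 z.2⟩ = 0 ↔ _
    rw [Submodule.mem_comap, Submodule.subtype_apply, ← hB]
    exact (QuotientAddGroup.eq_zero_iff (N := (Bsm 𝓝 A 2).addSubgroupOf (Zsm 𝓝 A 2))
      (⟨c2 (e : M →+ A) z.1, (hZ z.1).2 z.2⟩ : ↥(Zsm 𝓝 A 2))).trans
        AddSubgroup.mem_addSubgroupOf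
  let ψ : (↥(cocycles₂ M ⊓ C2) ⧸ (C1.map (d₁₂ M).hom).comap (cocycles₂ M ⊓ C2).subtype) →+
      Hsm 𝓝 A 2 :=
    QuotientAddGroup.lift _ φ (fun z hz => (hφ0 z).2 hz)
  have hψ : ∀ z : ↥(cocycles₂ M ⊓ C2), ψ (Submodule.Quotient.mk z) = φ z := fun z => rfl
  have hinj : Function.Injective ψ := by
    rw [injective_iff_map_eq_zero]
    intro x
    induction x using Submodule.Quotient.induction_on with
    | _ z =>
      intro hx
      rw [hψ, hφ0] at hx
      exact (Submodule.Quotient.mk_eq_zero _).2 hx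
  have hsurj : Function.Surjective ψ := by
    intro y
    obtain ⟨⟨y, hy⟩, rfl⟩ := QuotientAddGroup.mk'_surjective _ y
    obtain ⟨z, rfl⟩ := exists_eq_c2 M e y
    exact ⟨Submodule.Quotient.mk ⟨z, (hZ z).1 hy⟩, rfl⟩
  exact ⟨AddEquiv.ofBijective ψ ⟨hinj, hsurj⟩, fun z hz => rfl⟩

end H2

end Fermat.Agent.S55.Bridge
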