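/-
S55 / block BRIDGE, section Loc: unfolding the Prelude localisation maps.   (helper110)
-/
import Fermat.Agent.S55.Bridge.Basic

set_option autoImplicit false

open groupCohomology CategoryTheory ExtCitation
open scoped Pointwise

namespace Fermat.Agent.S55.Bridge

local notation "Qb" => AlgebraicClosure ℚ
local notation "GQ" => (AlgebraicClosure ℚ ≃ₐ[ℚ] AlgebraicClosure ℚ)

section Loc

variable {k : Type} [CommRing k] (S : Finset Nat.Primes) (M : Rep k GQ)
  {H : Type} [Group H] (r : H →* GQ)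

/-- degree 2 : unfolding of `locRes₂S` -/
theorem locRes₂S_eq_zero_iff (z : ↥(levelCocyclesS₂ S M)) :
    locRes₂S S M r (continuousH2Sπ S M z) = 0 ↔
      (fun g : H × H => (z.1 (r g.1, r g.2) : M)) ∈ levelCoboundaries₂ r (Rep.res r M) := by
  have h1 : locRes₂S S M r (continuousH2Sπ S M z) =
      continuousH2π r (Rep.res r M)
        (levelCocycles₂Map (rH := MonoidHom.id _) (rG := r) r (fun _ => rfl)
          (LinearMap.id : M →ₗ[k] Rep.res r M) (fun _ _ => rfl)
          (levelCocyclesS₂ToLevelCocycles₂ S M z)) := rfl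
  rw [h1, continuousH2π_eq_zero_iff]
  rfl

/-- degree 1 : unfolding of Mathlib's `groupCohomology.map` on `H1` -/
theorem map_H1π_eq_zero_iff (c : cocycles₁ M) :
    (groupCohomology.map r (𝟙 (Rep.res r M)) 1).hom ((H1π M).hom c) = 0 ↔
      ∃ m : M, ∀ h : H, c.1 (r h) = M.ρ (r h) m - m := by
  have h1 : (groupCohomology.map r (𝟙 (Rep.res r M)) 1).hom ((H1π M).hom c) =
      (H1π (Rep.res r M)).hom ((mapCocycles₁ r (𝟙 (Rep.res r M))).hom c) :=
    H1π_comp_map_apply r (𝟙 (Rep.res r M)) c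
  rw [h1]
  erw [H1π_eq_zero_iff]
  constructor
  · rintro ⟨m, hm⟩
    refine ⟨m, fun h => ?_⟩
    exact (congrFun hm h).symm
  · rintro ⟨m, hm⟩
    refine ⟨m, funext fun h => ?_⟩
    exact (hm h).symm

end Loc

end Fermat.Agent.S55.Bridge
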