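/-
S55 / block BRIDGE : section Sha (G2 + G3 + G4 assembled).
The frozen groups `sha₂ S M`, `sha₁ S M` in the vocabulary of block COH.
-/
import Fermat.Agent.S55.Bridge.Levels
import Fermat.Agent.S55.Bridge.H1
import Fermat.Agent.S55.Bridge.H2
import Fermat.Agent.S55.Bridge.Loc
import Fermat.Agent.S55.Bridge.Arch

set_option autoImplicit false

open groupCohomology CategoryTheory ExtCitation
open scoped Pointwise

namespace Fermat.Agent.S55.Bridge

local notation "Qb" => AlgebraicClosure ℚ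
local notation "GQ" => (AlgebraicClosure ℚ ≃ₐ[ℚ] AlgebraicClosure ℚ)

section Sha

variable {p : ℕ} [Fact p.Prime] (hp2 : p ≠ 2) (S : Finset Nat.Primes) (M : Rep (ZMod p) GQ)
  (𝓝S : LevelSys GQ) (h𝓝S : Cofinal 𝓝S (PS S))
  (𝓝loc : ∀ q : ↥S, LevelSys (primeLocalGaloisGroup q.1))
  (h𝓝loc : ∀ q : ↥S, Cofinal (𝓝loc q) (PAll (primeLocalToGlobal q.1)))
  {A : Type} [AddCommGroup A] [DistribMulAction GQ A]
  (e : M ≃+ A) (he : ∀ g m, e (M.ρ g m) = g • e m)
  {Aloc : ↥S → Type} [∀ q, AddCommGroup (Aloc q)]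
  [∀ q : ↥S, DistribMulAction (primeLocalGaloisGroup q.1) (Aloc q)]
  (φ : ∀ q : ↥S, A ≃+ Aloc q)
  (hφ : ∀ (q : ↥S) (h : primeLocalGaloisGroup q.1) (a : A),
    φ q (primeLocalToGlobal q.1 h • a) = h • φ q a)

include hp2 h𝓝S h𝓝loc he hφ in
theorem exists_sha₂_equiv (Sha2 : AddSubgroup (Hsm 𝓝S A 2))
    (hSha2 : ∀ z : ↥(Zsm 𝓝S A 2), Hsm.mk 𝓝S A 2 z ∈ Sha2 ↔
      ∀ q : ↥S, (fun h => φ q (pull (primeLocalToGlobal q.1) z.1 h)) ∈ Bsm (𝓝loc q) (Aloc q) 2) :
    Nonempty (↥(sha₂ S M) ≃ ↥Sha2) := by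
  have h1 : ∀ f, f ∈ levelCochainsS₁ S M ↔ IsLevel 𝓝S (fun g : Fin 1 → GQ => f (g 0)) :=
    fun f => isLevelConstantS₁_iff_isLevel h𝓝S f
  have h2 : ∀ f, f ∈ levelCochainsS₂ S M ↔ IsLevel 𝓝S (fun g : Fin 2 → GQ => f (g 0, g 1)) :=
    fun f => isLevelConstantS₂_iff_isLevel h𝓝S f
  obtain ⟨E, hE⟩ := exists_h2Equiv M e he 𝓝S (levelCochainsS₁ S M) (levelCochainsS₂ S M) h1 h2
  let E' : continuousH2S S M ≃+ Hsm 𝓝S A 2 := E
  have claim : ∀ x : continuousH2S S M, x ∈ sha₂ S M ↔ E' x ∈ Sha2 := by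
    intro x
    obtain ⟨z, rfl⟩ := Submodule.Quotient.mk_surjective _ x
    have hz : c2 (e : M →+ A) z.1 ∈ Zsm 𝓝S A 2 :=
      (c2_mem_Zsm_iff M e he 𝓝S (levelCochainsS₂ S M) h2 z.1).2 z.2
    have hEz : E' (Submodule.Quotient.mk z) = Hsm.mk 𝓝S A 2 ⟨c2 (e : M →+ A) z.1, hz⟩ := hE z hz
    rw [hEz, hSha2]
    have hker : (Submodule.Quotient.mk z : continuousH2S S M) ∈ sha₂ S M ↔
        ∀ v : extArithIndex S,
          locRes₂S S M (extArithLoc S v) (continuousH2Sπ S M z) = 0 := by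
      show (Submodule.Quotient.mk z : continuousH2S S M) ∈ LinearMap.ker (locTotal₂S S M) ↔ _
      rw [LinearMap.mem_ker]
      constructor
      · intro h v
        have := congrFun h v
        exact this
      · intro h
        funext v
        exact h v
    rw [hker]
    have hloc : ∀ q : ↥S,
        locRes₂S S M (primeLocalToGlobal q.1) (continuousH2Sπ S M z) = 0 ↔
        (fun h => φ q (pull (primeLocalToGlobal q.1) (c2 (e : M →+ A) z.1) h))
          ∈ Bsm (𝓝loc q) (Aloc q) 2 := by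
      intro q
      let r := primeLocalToGlobal q.1
      have h3 := locRes₂S_eq_zero_iff S M r z
      let e' : (Rep.res r M) ≃+ Aloc q := (e.trans (φ q) : M ≃+ Aloc q)
      have he' : ∀ g m, e' ((Rep.res r M).ρ g m) = g • e' m := by
        intro g m
        show φ q (e (M.ρ (r g) m)) = g • φ q (e m)
        rw [he, hφ]
      have h4 := c2_mem_Bsm_iff (Rep.res r M) e' he' (𝓝loc q) (levelCochains₁ r (Rep.res r M))
        (fun f => isLevelConstant₁_iff_isLevel (h𝓝loc q) f)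
        (fun g : primeLocalGaloisGroup q.1 × primeLocalGaloisGroup q.1 =>
          (z.1 (r g.1, r g.2) : M))
      exact h3.trans h4.symm
    constructor
    · intro h q
      exact (hloc q).1 (h (Sum.inr q))
    · intro h v
      rcases v with u | q
      · exact (locRes₂S_eq_zero_iff S M archimedeanLoc z).2 (arch_H2 hp2 M z.1 z.2.1)
      · exact (hloc q).2 (h q)
  exact ⟨Equiv.subtypeEquiv E'.toEquiv claim⟩

include hp2 h𝓝S he hφ in
theorem exists_sha₁_equiv (Sha1 : AddSubgroup (Hsm 𝓝S A 1))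
    (hSha1 : ∀ z : ↥(Zsm 𝓝S A 1), Hsm.mk 𝓝S A 1 z ∈ Sha1 ↔
      ∀ q : ↥S, (fun h => φ q (pull (primeLocalToGlobal q.1) z.1 h)) ∈ Bsm (𝓝loc q) (Aloc q) 1) :
    Nonempty (↥(sha₁ S M) ≃ ↥Sha1) := by
  have h1 : ∀ f, f ∈ levelCochainsS₁ S M ↔ IsLevel 𝓝S (fun g : Fin 1 → GQ => f (g 0)) :=
    fun f => isLevelConstantS₁_iff_isLevel h𝓝S f
  obtain ⟨E, hE⟩ := exists_h1Equiv M e he 𝓝S (levelCochainsS₁ S M) h1
  let E' : ↥(continuousH1S S M) ≃+ Hsm 𝓝S A 1 := E
  have claim : ∀ x : ↥(continuousH1S S M),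
      x.1 ∈ LinearMap.ker (locTotal (extArithLoc S) M) ↔ E' x ∈ Sha1 := by
    rintro ⟨x, hx⟩
    obtain ⟨c, hc, rfl⟩ := (mem_continuousH1S_iff S M x).1 hx
    have hz : c1 (e : M →+ A) c.1 ∈ Zsm 𝓝S A 1 :=
      (c1_mem_Zsm_iff M e he 𝓝S (levelCochainsS₁ S M) h1 c.1).2 ⟨c.2, hc⟩
    have hEz : E' ⟨(H1π M).hom c, hx⟩ = Hsm.mk 𝓝S A 1 ⟨c1 (e : M →+ A) c.1, hz⟩ := hE c hx hz
    rw [hEz, hSha1]
    have hker : (H1π M).hom c ∈ LinearMap.ker (locTotal (extArithLoc S) M) ↔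
        ∀ v : extArithIndex S, (locRes (extArithLoc S) M v).hom ((H1π M).hom c) = 0 := by
      rw [LinearMap.mem_ker]
      constructor
      · intro h v
        have := congrFun h v
        exact this
      · intro h
        funext v
        exact h v
    show (H1π M).hom c ∈ LinearMap.ker (locTotal (extArithLoc S) M) ↔ _
    rw [hker]
    have hloc : ∀ q : ↥S,
        (groupCohomology.map (primeLocalToGlobal q.1)
          (𝟙 (Rep.res (primeLocalToGlobal q.1) M)) 1).hom ((H1π M).hom c) = 0 ↔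
        (fun h => φ q (pull (primeLocalToGlobal q.1) (c1 (e : M →+ A) c.1) h))
          ∈ Bsm (𝓝loc q) (Aloc q) 1 := by
      intro q
      let r := primeLocalToGlobal q.1
      have h3 := map_H1π_eq_zero_iff M r c
      let e' : (Rep.res r M) ≃+ Aloc q := (e.trans (φ q) : M ≃+ Aloc q)
      have he' : ∀ g m, e' ((Rep.res r M).ρ g m) = g • e' m := by
        intro g m
        show φ q (e (M.ρ (r g) m)) = g • φ q (e m)
        rw [he, hφ]
      have h4 := c1_mem_Bsm_iff (Rep.res r M) e' he' (𝓝loc q)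
        (fun g : primeLocalGaloisGroup q.1 => (c.1 (r g) : M))
      exact h3.trans h4.symm
    constructor
    · intro h q
      exact (hloc q).1 (h (Sum.inr q))
    · intro h v
      rcases v with u | q
      · exact (map_H1π_eq_zero_iff M archimedeanLoc c).2 (arch_H1 hp2 M c)
      · exact (hloc q).2 (h q)
  refine ⟨(Equiv.subtypeEquivRight (fun x => ?_)).trans
    ((Equiv.subtypeSubtypeEquivSubtypeInter (· ∈ continuousH1S S M)
      (· ∈ LinearMap.ker (locTotal (extArithLoc S) M))).symm.trans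
      (Equiv.subtypeEquiv E'.toEquiv claim))⟩
  exact Submodule.mem_inf

end Sha

end Fermat.Agent.S55.Bridge
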